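/-
GATE-S (S33) / node [KER], file 1 (helper71): **the divisor bookkeeping of helper60's [KER] (board 5077)**
on helper92's abstract disc frame `GS/Frame/Vocab` — no special fibre in sight.

Let `Adm : F → Prop` be a class of "admissible" functions and `p ≥ 1`.  A class `ξ = [D]` with
`p • D = div u`, `Adm u`, is `Adm`-admissible (`admClasses Adm p`; for the nodal modular frame this is
helper30's `M⁰_p`, `GS/F/M0.mem_M0_iff` verbatim with `Adm u := IsCstUnit₁ u ∧ IsCstUnit₂ u`).

HYPOTHESIS (`DiscDegZero`, = (★) + (FF-const) of the [KER] proof, discharged on the two-component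
frame in `GS/Loc2/KerStar`): for every chart `𝔠`, admissible `u` and `f ≠ 0` with
`u f^p ∈ L(p • D0(𝔠))`, the divisor of `u f^p` has degree `0` on each chart disc.

THEOREM (`coordExists_of_discDegZero`): then every admissible class has coordinates in every chart with
`n = g` points: `CoordExists Φ n (admClasses Adm p)`.

Proof: Riemann's inequality (F9) gives `f ≠ 0` in `L(D + D0)`; `D⁺ := div f + D + D0 ≥ 0` has degree
`n`; `div (u f^p) = p (D⁺ - D0)` has degree `0` on the disc of `Q_i`, which contains the point `P_i` of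
`D0`, so `D⁺` has a point `X_i` there; the discs are disjoint, so `Σ X_i ≤ D⁺`, and the degrees agree:
`D⁺ = Σ X_i`, `ξ = [D] = [D⁺ - D0]`.  The coordinates are the values of the parameters at the `X_i`
(F1).
-/
import Mathlib
import Fermat.Agent.GS.Frame.Vocab
import Fermat.Agent.GJ.S37.PlaceMap
import Fermat.Agent.GJ.Kum.DivDvdBasic

set_option autoImplicit false
set_option linter.unusedSectionVars false

noncomputable section

open AlgebraicCurve Module

namespace Fermat.Agent.GS.Loc2.Ker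

open Fermat.Agent.RRh45 Fermat.Agent.GH Fermat.Agent.GS.Frame

open scoped Classical

variable {K F k Sp 𝒬 : Type*} [Field K] [Field F] [Algebra K F] [Field k]
  [CommRing Sp] [Algebra k Sp]

/-- the classes `[D]` with `p • D = div u` for an admissible `u`. -/
def admClasses (Adm : F → Prop) (p : ℕ) : Set (Pic0 K F) :=
  {ξ | ∃ u : F, u ≠ 0 ∧ Adm u ∧ ∃ D : Divisor.degZero (K := K) (F := F),
    (∀ v : Place K F, (p : ℤ) * (D : Divisor K F) v = v.ord u) ∧ ξ = Pic0.mk D}

/-- HYPOTHESIS of the bookkeeping: `div (u f^p)` has degree zero on every chart disc, for `u`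
admissible and `u f^p ∈ L(p • D0)`. -/
def DiscDegZero (Φ : DiscData K F k Sp 𝒬) (n : ℕ) (Adm : F → Prop) (p : ℕ) : Prop :=
  ∀ (𝔠 : Chart Φ n) (u f : F), u ≠ 0 → f ≠ 0 → Adm u →
    u * f ^ p ∈ riemannRochSpace ((p : ℤ) • 𝔠.D0) →
    ∀ Dy : Divisor K F, (∀ v : Place K F, Dy v = v.ord (u * f ^ p)) →
    ∀ i, ∑ P ∈ Dy.support.filter (fun P => P ∈ Φ.disc (𝔠.Q i)), Dy P = 0

theorem sum_single_nonneg {n : ℕ}
    (P : Fin n → Place K F) : (0 : Divisor K F) ≤ ∑ i, Finsupp.single (P i) (1 : ℤ) :=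
  Finset.sum_nonneg fun _ _ => Finsupp.single_nonneg.mpr zero_le_one

theorem degree_sum_single
    (hdeg : ∀ P : Place K F, P.deg = 1) {n : ℕ} (P : Fin n → Place K F) :
    Divisor.degree (∑ i, Finsupp.single (P i) (1 : ℤ)) = n := by
  rw [map_sum]
  simp [Divisor.degree_single, hdeg]

theorem sum_single_apply_pos {n : ℕ}
    (P : Fin n → Place K F) (i : Fin n) :
    1 ≤ (∑ j, Finsupp.single (P j) (1 : ℤ)) (P i) := by
  rw [Finsupp.finsetSum_apply]
  have h1 : Finsupp.single (P i) (1 : ℤ) (P i) ≤ ∑ j, Finsupp.single (P j) (1 : ℤ) (P i) :=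
    Finset.single_le_sum (f := fun j => Finsupp.single (P j) (1 : ℤ) (P i))
      (fun j _ => by
        rw [Finsupp.single_apply]
        split_ifs <;> norm_num)
      (Finset.mem_univ i)
  rwa [Finsupp.single_eq_same] at h1

theorem sum_single_apply_nonneg {n : ℕ}
    (P : Fin n → Place K F) (P₀ : Place K F) :
    0 ≤ (∑ j, Finsupp.single (P j) (1 : ℤ)) P₀ :=
  Finsupp.le_def.mp (sum_single_nonneg P) P₀

variable [HasPrincipalDivisors K F]

/-- **[KER], bookkeeping half**: admissible classes have coordinates in every chart. -/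
theorem coordExists_of_discDegZero {Φ : DiscData K F k Sp 𝒬} (hF : DiscFacts Φ) {n : ℕ}
    (hn : (n : ℤ) = Φ.g) {p : ℕ} (hp : 0 < p) {Adm : F → Prop}
    (hadm : DiscDegZero Φ n Adm p) : CoordExists Φ n (admClasses Adm p) := by
  rintro 𝔠 ξ ⟨u, hu0, hu, D, hD, rfl⟩
  have hp0 : (p : ℤ) ≠ 0 := Int.natCast_ne_zero.2 hp.ne'
  have hpZ : (0 : ℤ) < p := by exact_mod_cast hp
  have hdegD : Divisor.degree (D : Divisor K F) = 0 := D.2
  have hdegD0 : Divisor.degree 𝔠.D0 = n := degree_sum_single hF.degF _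
  -- Riemann: a nonzero `f ∈ L(D + D0)`
  have hri := hF.riemann ((D : Divisor K F) + 𝔠.D0)
  rw [map_add, hdegD, hdegD0, zero_add, hn] at hri
  have hpos : 0 < finrank K (riemannRochSpace ((D : Divisor K F) + 𝔠.D0)) := by
    have : (0 : ℤ) < (finrank K (riemannRochSpace ((D : Divisor K F) + 𝔠.D0)) : ℤ) := by omega
    exact_mod_cast this
  have hbot : riemannRochSpace ((D : Divisor K F) + 𝔠.D0) ≠ ⊥ := by
    intro h
    rw [h, finrank_bot] at hpos
    exact lt_irrefl _ hpos
  obtain ⟨f, hfD, hf0⟩ := (Submodule.ne_bot_iff _).mp hbot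
  obtain ⟨Df, hDf, hdegDf⟩ := HasPrincipalDivisors.exists_divisor (K := K) f hf0
  -- the effective divisor `D⁺`
  set Dp : Divisor K F := (D : Divisor K F) + 𝔠.D0 + Df with hDp
  have hDp0 : 0 ≤ Dp := by
    rw [Finsupp.le_def]
    intro P
    have := (mem_riemannRochSpace_iff.mp hfD P).resolve_left hf0
    rw [hDp, Finsupp.add_apply, hDf P]
    simp only [Finsupp.coe_zero, Pi.zero_apply]
    omega
  have hdegDp : Divisor.degree Dp = n := by
    rw [hDp, map_add, map_add, hdegD, hdegD0, hdegDf, zero_add, add_zero]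
  -- the function `y = u f^p` and its divisor
  have hfp0 : f ^ p ≠ 0 := pow_ne_zero p hf0
  have hy0 : u * f ^ p ≠ 0 := mul_ne_zero hu0 hfp0
  set Dy : Divisor K F := (p : ℤ) • ((D : Divisor K F) + Df) with hDy
  have hDyord : ∀ v : Place K F, Dy v = v.ord (u * f ^ p) := by
    intro v
    rw [hDy, Finsupp.smul_apply, Finsupp.add_apply, smul_eq_mul, v.ord_mul hu0 hfp0,
      Fermat.Agent.GJ.Kum.DivBasic.ord_pow_natCast, ← hD v, hDf v]
    ring
  have hDyDp : ∀ v : Place K F, Dy v = (p : ℤ) * (Dp v - 𝔠.D0 v) := by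
    intro v
    rw [hDy, hDp, Finsupp.smul_apply, Finsupp.add_apply, Finsupp.add_apply, Finsupp.add_apply,
      smul_eq_mul]
    ring
  have hymem : u * f ^ p ∈ riemannRochSpace ((p : ℤ) • 𝔠.D0) := by
    rw [mem_riemannRochSpace_iff]
    intro v
    right
    rw [← hDyord v, hDyDp v, Finsupp.smul_apply, smul_eq_mul]
    have h1 : 0 ≤ Dp v := by
      have := Finsupp.le_def.mp hDp0 v
      simpa using this
    nlinarith
  have hzero := hadm 𝔠 u f hu0 hf0 hu hymem Dy hDyord
  -- a point of `D⁺` in every chart disc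
  have hex : ∀ i, ∃ X : Place K F, X ∈ Φ.disc (𝔠.Q i) ∧ 1 ≤ Dp X := by
    intro i
    by_contra hcon
    push Not at hcon
    have hle : ∀ P ∈ Dy.support.filter (fun P => P ∈ Φ.disc (𝔠.Q i)), Dy P ≤ 0 := by
      intro P hP
      have hPd := (Finset.mem_filter.mp hP).2
      have h1 := hcon P hPd
      have h2 : 0 ≤ Dp P := by
        have := Finsupp.le_def.mp hDp0 P
        simpa using this
      have h3 : 0 ≤ 𝔠.D0 P := sum_single_apply_nonneg _ P
      rw [hDyDp P]
      have h4 : Dp P - 𝔠.D0 P ≤ 0 := by omega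
      exact mul_nonpos_of_nonneg_of_nonpos hpZ.le h4
    have hPi : (𝔠.pt i).P ∈ Dy.support.filter (fun P => P ∈ Φ.disc (𝔠.Q i)) := by
      rw [Finset.mem_filter, Finsupp.mem_support_iff]
      refine ⟨?_, (𝔠.pt i).hP⟩
      have h1 := hcon _ (𝔠.pt i).hP
      have h2 : 0 ≤ Dp (𝔠.pt i).P := by
        have := Finsupp.le_def.mp hDp0 (𝔠.pt i).P
        simpa using this
      have h3 : 1 ≤ 𝔠.D0 (𝔠.pt i).P := sum_single_apply_pos (fun j => (𝔠.pt j).P) i
      rw [hDyDp]
      have h4 : Dp (𝔠.pt i).P - 𝔠.D0 (𝔠.pt i).P < 0 := by omega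
      exact (mul_neg_of_pos_of_neg hpZ h4).ne
    have hlt : Dy (𝔠.pt i).P < 0 := by
      have h1 := hcon _ (𝔠.pt i).hP
      have h2 : 0 ≤ Dp (𝔠.pt i).P := by
        have := Finsupp.le_def.mp hDp0 (𝔠.pt i).P
        simpa using this
      have h3 : 1 ≤ 𝔠.D0 (𝔠.pt i).P := sum_single_apply_pos (fun j => (𝔠.pt j).P) i
      rw [hDyDp]
      have h4 : Dp (𝔠.pt i).P - 𝔠.D0 (𝔠.pt i).P < 0 := by omega
      exact mul_neg_of_pos_of_neg hpZ h4
    have := Finset.sum_lt_sum hle ⟨_, hPi, hlt⟩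
    rw [hzero i, Finset.sum_const_zero] at this
    exact lt_irrefl _ this
  choose X hX hX1 using hex
  have hXinj : Function.Injective X := by
    intro i j hij
    by_contra hne
    have hQ : 𝔠.Q i ≠ 𝔠.Q j := fun h => hne (𝔠.hQ h)
    exact Φ.disc_disjoint hQ (X i) (hX i) (by rw [hij]; exact hX j)
  -- `D⁺ = Σ X_i`
  have hsum : (∑ i, Finsupp.single (X i) (1 : ℤ)) = Dp := by
    apply Fermat.Agent.GJ.S37.PlaceMap.eq_of_le_of_degree_eq hF.degF
    · rw [Finsupp.le_def]
      intro P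
      rw [Finsupp.finsetSum_apply]
      by_cases hP : ∃ i, X i = P
      · obtain ⟨i, rfl⟩ := hP
        rw [Finset.sum_eq_single i]
        · rw [Finsupp.single_eq_same]; exact hX1 i
        · intro j _ hji
          exact Finsupp.single_eq_of_ne (fun h => hji (hXinj h.symm))
        · intro h; exact absurd (Finset.mem_univ i) h
      · push Not at hP
        rw [Finset.sum_eq_zero]
        · have := Finsupp.le_def.mp hDp0 P
          simpa using this
        · intro j _
          exact Finsupp.single_eq_of_ne (Ne.symm (hP j))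
    · rw [degree_sum_single hF.degF, hdegDp]
  -- the coordinates
  have hval : ∀ i, ∃ a : K, ValueAt (X i) (𝔠.pt i).t a := fun i => by
    obtain ⟨a, -, ha⟩ := hF.exists_value (𝔠.pt i).ht (X i) (hX i)
    exact ⟨a, ha⟩
  choose τ hτ using hval
  have hdeg : (∑ i, Finsupp.single (X i) (1 : ℤ)) - 𝔠.D0 ∈
      Divisor.degZero (K := K) (F := F) := by
    rw [Divisor.mem_degZero, map_sub, degree_sum_single hF.degF, hdegD0, sub_self]
  refine ⟨τ, X, hX, hτ, hdeg, ?_⟩
  refine (QuotientAddGroup.eq).mpr ?_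
  rw [AddSubgroup.mem_addSubgroupOf, AddSubgroup.coe_add, AddSubgroup.coe_neg]
  have he : -((∑ i, Finsupp.single (X i) (1 : ℤ)) - 𝔠.D0) + (D : Divisor K F) = -Df := by
    rw [hsum, hDp]; abel
  show -((∑ i, Finsupp.single (X i) (1 : ℤ)) - 𝔠.D0) + (D : Divisor K F) ∈ Divisor.principal
  rw [he]
  exact neg_mem ⟨f, hf0, hDf⟩

end Fermat.Agent.GS.Loc2.Ker
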