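/-
GATE-S (S33) / node [KER], file 2 (helper71): **the `p`-th root lemma on the glued Riemann–Roch spaces**
(the special-fibre step of helper60's [KER] proof, board 5077).

`k` a field of characteristic `p`, `F₁ F₂` function fields over `k`, nodes `P j`, `Q j` of degree one,
`glued P Q E₁ E₂` helper16's glued space (`GS/Nodal/LSR2Defs`).  If

  `(c₁ z₁^p, c₂ z₂^p) ∈ glued P Q (p • E₁) (p • E₂)`,  `c₁ ≠ 0`,  `c₁ κ^p = c₂`,

then `(z₁, κ z₂) ∈ glued P Q E₁ E₂` (`glued_of_pow`).  The degenerate case `c₂ = 0`, `κ = 0` is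
included: `(c₁ z₁^p, 0)` glued `⟹` `(z₁, 0)` glued.

Ingredients: `ord (z^p) = p ord z` (divisor inequality), existence of values at places of degree one
(`GH/Disc/Values.exists_valueAt` through the bridge `valueAt_iff_gh`), injectivity of Frobenius.
-/
import Mathlib
import Fermat.Agent.GS.Nodal.LSR2Defs
import Fermat.Agent.GH.Disc.Values
import Fermat.Agent.GJ.Kum.DivDvdBasic

set_option autoImplicit false
set_option linter.unusedSectionVars false

noncomputable section

open AlgebraicCurve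

namespace Fermat.Agent.GS.Loc2.PthRoot

open Fermat.Agent.RRh45 Fermat.Agent.S24 Fermat.Agent.GK.NodalGraded Fermat.Agent.GS.Nodal.LSR2

section Place

variable {K F : Type*} [Field K] [Field F] [Algebra K F] {v : Place K F}

/-- bridge between the two spellings of "`f(v) = a`". -/
theorem valueAt_iff_gh (f : F) (a : K) :
    ValueAt v f a ↔ Fermat.Agent.GH.ValueAt v f a := by
  rw [Fermat.Agent.GH.Disc.valueAt_iff_ord]
  unfold ValueAt
  rw [mem_ordGE]
  constructor
  · rintro (h | h)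
    · exact Or.inl h
    · exact Or.inr (by omega)
  · rintro (h | h)
    · exact Or.inl h
    · exact Or.inr (by omega)

/-- a root of a function regular at `v` is regular at `v`. -/
theorem mem_ordGE_zero_of_pow {z : F} {m : ℕ} (hm : 0 < m) (h : z ^ m ∈ ordGE v 0) :
    z ∈ ordGE v 0 := by
  rw [mem_ordGE] at h ⊢
  by_cases hz : z = 0
  · exact Or.inl hz
  right
  have h1 := h.resolve_left (pow_ne_zero m hz)
  rw [Fermat.Agent.GJ.Kum.DivBasic.ord_pow_natCast] at h1
  have hm' : (0 : ℤ) < m := by exact_mod_cast hm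
  by_contra hneg
  push Not at hneg
  have : (m : ℤ) * v.ord z < 0 := mul_neg_of_pos_of_neg hm' hneg
  omega

/-- at a place of degree one a regular function has a value. -/
theorem exists_valueAt_of_mem_ordGE_zero (hv : v.deg = 1) {z : F} (h : z ∈ ordGE v 0) :
    ∃ d : K, ValueAt v z d := by
  have hz : z ∈ v.toValuationSubring := by
    rw [mem_ordGE] at h
    by_cases hz0 : z = 0
    · rw [hz0]; exact zero_mem _
    · exact (PlaceB.ord_nonneg_iff v hz0).mp (h.resolve_left hz0)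
  obtain ⟨d, hd⟩ := Fermat.Agent.GH.Disc.exists_valueAt hv hz
  exact ⟨d, (valueAt_iff_gh z d).mpr hd⟩

theorem ValueAt.pow' {f : F} {a : K} (hf : ValueAt v f a) (m : ℕ) : ValueAt v (f ^ m) (a ^ m) := by
  induction m with
  | zero => rw [pow_zero, pow_zero]; exact valueAt_one
  | succ m ih => rw [pow_succ, pow_succ]; exact ih.mul hf

/-- a root of an element of `L(m • E)` lies in `L(E)`. -/
theorem mem_riemannRochSpace_of_pow {E : Divisor K F} {z : F} {m : ℕ} (hm : 0 < m)
    (h : z ^ m ∈ riemannRochSpace ((m : ℤ) • E)) : z ∈ riemannRochSpace E := by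
  rw [mem_riemannRochSpace_iff] at h ⊢
  intro w
  by_cases hz : z = 0
  · exact Or.inl hz
  right
  have h1 := (h w).resolve_left (pow_ne_zero m hz)
  rw [Fermat.Agent.GJ.Kum.DivBasic.ord_pow_natCast, Finsupp.smul_apply, smul_eq_mul] at h1
  have hm' : (0 : ℤ) < m := by exact_mod_cast hm
  by_contra hneg
  push Not at hneg
  have : (m : ℤ) * w.ord z < (m : ℤ) * (-E w) := mul_lt_mul_of_pos_left hneg hm'
  linarith

end Place

section Glued

variable {k F₁ F₂ : Type*} [Field k] [Field F₁] [Algebra k F₁] [Field F₂] [Algebra k F₂]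
variable {ι : Type*} {P : ι → Place k F₁} {Q : ι → Place k F₂}

/-- **the `p`-th root lemma**: `(c₁ z₁^p, c₂ z₂^p)` glued with poles bounded by `p • E` and
`c₁ κ^p = c₂`, `c₁ ≠ 0`, forces `(z₁, κ z₂)` glued with poles bounded by `E`. -/
theorem glued_of_pow (p : ℕ) [Fact p.Prime] [CharP k p]
    (hP : ∀ j, (P j).deg = 1) (hQ : ∀ j, (Q j).deg = 1)
    {E₁ : Divisor k F₁} {E₂ : Divisor k F₂} {c₁ c₂ κ : k} (hc₁ : c₁ ≠ 0)
    (hκ : c₁ * κ ^ p = c₂) {z₁ : F₁} {z₂ : F₂}
    (h : (algebraMap k F₁ c₁ * z₁ ^ p, algebraMap k F₂ c₂ * z₂ ^ p) ∈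
      glued P Q ((p : ℤ) • E₁) ((p : ℤ) • E₂)) :
    (z₁, algebraMap k F₂ κ * z₂) ∈ glued P Q E₁ E₂ := by
  have hp : 0 < p := (Fact.out : p.Prime).pos
  obtain ⟨h1, h2, h3⟩ := h
  simp only at h1 h2
  -- undo the constants
  have hz1p : z₁ ^ p = c₁⁻¹ • (algebraMap k F₁ c₁ * z₁ ^ p) := by
    rw [Algebra.smul_def, ← mul_assoc, ← map_mul, inv_mul_cancel₀ hc₁, map_one, one_mul]
  have hz1L : z₁ ∈ riemannRochSpace E₁ := by
    refine mem_riemannRochSpace_of_pow hp ?_
    rw [hz1p]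
    exact Submodule.smul_mem _ _ h1
  have hκ0 : c₂ = 0 → κ = 0 := by
    intro h0
    rw [h0] at hκ
    exact pow_eq_zero_iff hp.ne' |>.mp ((mul_eq_zero.mp hκ).resolve_left hc₁)
  refine ⟨hz1L, ?_, fun j => ?_⟩
  · -- the second component
    show algebraMap k F₂ κ * z₂ ∈ riemannRochSpace E₂
    by_cases hc₂ : c₂ = 0
    · rw [hκ0 hc₂, map_zero, zero_mul]; exact Submodule.zero_mem _
    · have hz2p : z₂ ^ p = c₂⁻¹ • (algebraMap k F₂ c₂ * z₂ ^ p) := by
        rw [Algebra.smul_def, ← mul_assoc, ← map_mul, inv_mul_cancel₀ hc₂, map_one, one_mul]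
      have hz2L : z₂ ∈ riemannRochSpace E₂ := by
        refine mem_riemannRochSpace_of_pow hp ?_
        rw [hz2p]
        exact Submodule.smul_mem _ _ h2
      rw [← Algebra.smul_def]
      exact Submodule.smul_mem _ _ hz2L
  · -- glueing at the node `j`
    obtain ⟨c, hcP, hcQ⟩ := h3 j
    simp only at hcP hcQ
    -- the value of `z₁`
    have hreg1 : z₁ ^ p ∈ ordGE (P j) 0 := by
      rw [hz1p]
      exact Submodule.smul_mem _ _ hcP.mem_zero
    obtain ⟨d₁, hd₁⟩ := exists_valueAt_of_mem_ordGE_zero (hP j) (mem_ordGE_zero_of_pow hp hreg1)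
    have hval1 : ValueAt (P j) (algebraMap k F₁ c₁ * z₁ ^ p) (c₁ * d₁ ^ p) := by
      have := (ValueAt.pow' hd₁ p).smul c₁
      rwa [Algebra.smul_def] at this
    have hc : c = c₁ * d₁ ^ p := ValueAt.unique hcP hval1
    by_cases hc₂ : c₂ = 0
    · -- degenerate case
      have hκ' := hκ0 hc₂
      rw [hc₂, map_zero, zero_mul] at hcQ
      have hc0 : c = 0 := ValueAt.unique hcQ valueAt_zero
      have hd0 : d₁ = 0 := by
        rw [hc0] at hc
        exact pow_eq_zero_iff hp.ne' |>.mp ((mul_eq_zero.mp hc.symm).resolve_left hc₁)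
      refine ⟨0, ?_, ?_⟩
      · show ValueAt (P j) z₁ 0
        rw [← hd0]; exact hd₁
      · show ValueAt (Q j) (algebraMap k F₂ κ * z₂) 0
        rw [hκ', map_zero, zero_mul]; exact valueAt_zero
    · have hz2p : z₂ ^ p = c₂⁻¹ • (algebraMap k F₂ c₂ * z₂ ^ p) := by
        rw [Algebra.smul_def, ← mul_assoc, ← map_mul, inv_mul_cancel₀ hc₂, map_one, one_mul]
      have hreg2 : z₂ ^ p ∈ ordGE (Q j) 0 := by
        rw [hz2p]
        exact Submodule.smul_mem _ _ hcQ.mem_zero
      obtain ⟨d₂, hd₂⟩ := exists_valueAt_of_mem_ordGE_zero (hQ j) (mem_ordGE_zero_of_pow hp hreg2)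
      have hval2 : ValueAt (Q j) (algebraMap k F₂ c₂ * z₂ ^ p) (c₂ * d₂ ^ p) := by
        have := (ValueAt.pow' hd₂ p).smul c₂
        rwa [Algebra.smul_def] at this
      have hc' : c = c₂ * d₂ ^ p := ValueAt.unique hcQ hval2
      have hpow : d₁ ^ p = (κ * d₂) ^ p := by
        have h4 : c₁ * d₁ ^ p = c₁ * (κ * d₂) ^ p := by
          rw [← hc, hc', ← hκ, mul_pow]; ring
        exact mul_left_cancel₀ hc₁ h4
      have hd : d₁ = κ * d₂ := frobenius_inj k p hpow
      refine ⟨d₁, hd₁, ?_⟩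
      show ValueAt (Q j) (algebraMap k F₂ κ * z₂) d₁
      rw [hd, ← Algebra.smul_def]
      exact hd₂.smul κ

end Glued

end Fermat.Agent.GS.Loc2.PthRoot
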