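/-
GATE-S (S33) / node [KER], file 3 (helper71): **(★) of helper60's [KER] proof (board 5077)** on a
two-component frame, and the discharge of the hypothesis `DiscDegZero` of `GS/Loc2/KerBook`.

Frame: `R1 : RedData K F k Ft1`, `R2 : RedData K F k Ft2` two reduction data of `F` over the same
valuation ring of `K` (`RedCompat`), both UNRAMIFIED (every nonzero function is a constant times a
unit), nodes `P j ∈ Place k Ft1`, `Q j ∈ Place k Ft2` of degree one, `glued P Q E₁ E₂` helper16's glued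
Riemann–Roch space, `k` perfect of characteristic `p`.

* `IsCst R y` : `y` is a unit of `R.Rw` with CONSTANT reduction (`GalVal.IsCstUnit` verbatim for
  `R.Rw = V.W`); `isCst_iff` : `y ∈ R.Rw` and `red y = d ≠ 0` constant.
* `exists_isCst_smul` **(★)**: `u` admissible for both valuations, `f ≠ 0`, `u f^p ∈ L(p • D0)`,
  where `red2 (L(p • D0) ∩ ball2) ⊆ glued (p • E₁) (p • E₂)` [(L5) = INST²(b)] and the glued space of
  `(E₁, E₂)` is the constants [NS]; then `a · u f^p` is admissible for some constant `a ≠ 0`.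
  Proof: normalise `f` for each valuation, `f_i = α_i f`; for the larger of the two norms of `u f^p`
  the function `y' = α^p u f^p` lies in `ball2`, `red2 y' = (c₁ z₁^p, c₂ e^p z₂^p)` with
  `z_i = red_i f_i ≠ 0`; the `p`-th root lemma (`GS/Loc2/PthRoot`) puts `(z₁, κ z₂)` into the glued
  space of `(E₁, E₂)`, i.e. `z₁`, `κ z₂` are the same nonzero constant; so `κ ≠ 0`, both reductions
  of `y'` are nonzero constants.
* `discDegZero_of_glued` : `DiscDegZero Φ n (IsCst R1 ∧ IsCst R2) p` from (L5)+(NS) per chart and the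
  fibre formula for admissible functions [(FF2) at constants].
* `coordExists_of_glued` : **[KER]** `CoordExists Φ n (admClasses (IsCst R1 ∧ IsCst R2) p)`.
-/
import Mathlib
import Fermat.Agent.GS.Loc2.KerBook
import Fermat.Agent.GS.Loc2.PthRoot
import Fermat.Agent.GK.MultiVal.TwoRedData

set_option autoImplicit false
set_option linter.unusedSectionVars false

noncomputable section

open AlgebraicCurve Module

namespace Fermat.Agent.GS.Loc2.Ker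

open Fermat.Agent.RRh45 Fermat.Agent.GJ.J1 Fermat.Agent.GK.MultiVal Fermat.Agent.GS.Nodal.LSR2
open Fermat.Agent.GS.Frame Fermat.Agent.GS.Loc2.PthRoot Fermat.Agent.GJ.S37MinDiv

open scoped Classical

/-! ### units with constant reduction -/

section Cst

variable {K F k Ft : Type*} [Field K] [Field F] [Algebra K F] [Field k] [Field Ft] [Algebra k Ft]

/-- `y` is a unit of the valuation ring `R.Rw` with constant reduction. -/
def IsCst (R : RedData K F k Ft) (y : F) : Prop :=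
  ∃ a : K, R.A.valuation a = 1 ∧ R.Rw.valuation (y - algebraMap K F a) < 1

variable {R : RedData K F k Ft}

theorem isCst_iff {y : F} :
    IsCst R y ↔ ∃ (h : y ∈ R.Rw) (d : k), d ≠ 0 ∧ R.red ⟨y, h⟩ = algebraMap k Ft d := by
  constructor
  · rintro ⟨a, ha, hya⟩
    have haA : a ∈ R.A := (R.A.valuation_le_one_iff a).mp ha.le
    have haW : algebraMap K F a ∈ R.Rw := (R.mem_A_iff a).1 haA
    have hd : y - algebraMap K F a ∈ R.Rw := (R.Rw.valuation_le_one_iff _).mp hya.le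
    have hy : y ∈ R.Rw := by
      have := R.Rw.add_mem _ _ hd haW
      rwa [sub_add_cancel] at this
    refine ⟨hy, R.res ⟨a, haA⟩, ?_, ?_⟩
    · intro h0
      have := (Fermat.Agent.GH.Disc.res_eq_zero_iff (R := R) ⟨a, haA⟩).mp h0
      rw [ha] at this
      exact lt_irrefl _ this
    · have h1 : (⟨y, hy⟩ : R.Rw) = ⟨y - algebraMap K F a, hd⟩ + ⟨algebraMap K F a, haW⟩ :=
        Subtype.ext (by simp)
      have h2 : R.red ⟨y - algebraMap K F a, hd⟩ = 0 := by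
        rw [R.red_eq_zero_iff]
        exact (R.Rw.valuation_lt_one_iff _).mpr hya
      rw [h1, map_add, h2, zero_add]
      exact R.red_algebraMap ⟨a, haA⟩
  · rintro ⟨hy, d, hd, hred⟩
    obtain ⟨a, rfl⟩ := R.res_surjective d
    have haW : algebraMap K F (a : K) ∈ R.Rw := (R.mem_A_iff a).1 a.2
    refine ⟨(a : K), ?_, ?_⟩
    · refine le_antisymm ((R.A.valuation_le_one_iff _).mpr a.2) (not_lt.mp fun hlt => hd ?_)
      exact (Fermat.Agent.GH.Disc.res_eq_zero_iff (R := R) a).mpr hlt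
    · have h0 : R.red (⟨y, hy⟩ - ⟨algebraMap K F (a : K), haW⟩) = 0 := by
        rw [map_sub, hred, R.red_algebraMap a, sub_self]
      rw [R.red_eq_zero_iff] at h0
      exact (R.Rw.valuation_lt_one_iff _).mp h0

theorem isCst_of_red {y : F} (h : y ∈ R.Rw) {d : k} (hd : d ≠ 0)
    (hred : R.red ⟨y, h⟩ = algebraMap k Ft d) : IsCst R y :=
  isCst_iff.mpr ⟨h, d, hd, hred⟩

theorem IsCst.ne_zero {y : F} (h : IsCst R y) : y ≠ 0 := by
  obtain ⟨hy, d, hd, hred⟩ := isCst_iff.mp h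
  rintro rfl
  have : R.red ⟨0, hy⟩ = 0 := map_zero R.red
  rw [hred] at this
  exact hd ((map_eq_zero (algebraMap k Ft)).mp this)

/-- a unit of `R.Rw` has nonzero reduction. -/
theorem red_ne_zero_of_inv_mem {x : F} (h : x ∈ R.Rw) (hi : x⁻¹ ∈ R.Rw) (hx : x ≠ 0) :
    R.red ⟨x, h⟩ ≠ 0 := by
  intro h0
  have hmul : (⟨x, h⟩ : R.Rw) * ⟨x⁻¹, hi⟩ = 1 := Subtype.ext (mul_inv_cancel₀ hx)
  have := congrArg R.red hmul
  rw [map_mul, h0, zero_mul, map_one] at this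
  exact one_ne_zero this.symm

end Cst

/-! ### (★) -/

section Star

variable {K F k Ft1 Ft2 : Type*} [Field K] [Field F] [Algebra K F] [Field k]
  [Field Ft1] [Algebra k Ft1] [Field Ft2] [Algebra k Ft2]
variable {R1 : RedData K F k Ft1} {R2 : RedData K F k Ft2}
variable {ι : Type*} {P : ι → Place k Ft1} {Q : ι → Place k Ft2}

/-- (★), the half where the first norm of `u f^p` is the larger one.  Stated for two reduction data
with `R2.A ≤`-comparison `α₁ α₂⁻¹ ∈ R2.A` only, so that it can be used in both orders. -/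
theorem star_aux (p : ℕ) [Fact p.Prime] [CharP k p] (hperf : ∀ c : k, ∃ κ : k, κ ^ p = c)
    (hP : ∀ j, (P j).deg = 1) (hQ : ∀ j, (Q j).deg = 1)
    {E₁ : Divisor k Ft1} {E₂ : Divisor k Ft2}
    (hNS : ∀ z ∈ glued P Q E₁ E₂, ∃ d : k, z = (algebraMap k Ft1 d, algebraMap k Ft2 d))
    {D0 : Divisor K F}
    (hL5 : ∀ (x : F) (h1 : x ∈ R1.Rw) (h2 : x ∈ R2.Rw), x ∈ riemannRochSpace ((p : ℤ) • D0) →
      (R1.red ⟨x, h1⟩, R2.red ⟨x, h2⟩) ∈ glued P Q ((p : ℤ) • E₁) ((p : ℤ) • E₂))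
    {u f : F} (hu1 : IsCst R1 u) (hu2 : IsCst R2 u) (hf : f ≠ 0)
    (hy : u * f ^ p ∈ riemannRochSpace ((p : ℤ) • D0))
    {α₁ α₂ : K} (hα₁ : α₁ ≠ 0) (hα₂ : α₂ ≠ 0)
    (hf1 : algebraMap K F α₁ * f ∈ R1.Rw) (hf1i : (algebraMap K F α₁ * f)⁻¹ ∈ R1.Rw)
    (hf2 : algebraMap K F α₂ * f ∈ R2.Rw) (hf2i : (algebraMap K F α₂ * f)⁻¹ ∈ R2.Rw)
    (he : α₁ * α₂⁻¹ ∈ R2.A) :
    IsCst R1 (algebraMap K F (α₁ ^ p) * (u * f ^ p)) ∧
      IsCst R2 (algebraMap K F (α₁ ^ p) * (u * f ^ p)) := by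
  obtain ⟨hu1W, c₁, hc₁, hred1⟩ := isCst_iff.mp hu1
  obtain ⟨hu2W, c₂, hc₂, hred2⟩ := isCst_iff.mp hu2
  set f₁ : F := algebraMap K F α₁ * f with hf₁
  set f₂ : F := algebraMap K F α₂ * f with hf₂
  set e : K := α₁ * α₂⁻¹ with hedef
  have hf₁0 : f₁ ≠ 0 := mul_ne_zero ((map_ne_zero (algebraMap K F)).mpr hα₁) hf
  have hf₂0 : f₂ ≠ 0 := mul_ne_zero ((map_ne_zero (algebraMap K F)).mpr hα₂) hf
  set y' : F := algebraMap K F (α₁ ^ p) * (u * f ^ p) with hy'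
  have hy'1 : y' = u * f₁ ^ p := by
    rw [hy', hf₁, mul_pow, map_pow]; ring
  have hk : e ^ p * α₂ ^ p = α₁ ^ p := by
    rw [← mul_pow, hedef, mul_assoc, inv_mul_cancel₀ hα₂, mul_one]
  have hy'2 : y' = algebraMap K F (e ^ p) * (u * f₂ ^ p) := by
    rw [hy', ← hk, hf₂, map_mul, map_pow (algebraMap K F) α₂ p, mul_pow]
    ring
  have heW : algebraMap K F (e ^ p) ∈ R2.Rw := (R2.mem_A_iff _).1 (R2.A.pow_mem he p)
  have hy'W1 : y' ∈ R1.Rw := by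
    rw [hy'1]; exact R1.Rw.mul_mem _ _ hu1W (R1.Rw.pow_mem hf1 p)
  have hy'W2 : y' ∈ R2.Rw := by
    rw [hy'2]; exact R2.Rw.mul_mem _ _ heW (R2.Rw.mul_mem _ _ hu2W (R2.Rw.pow_mem hf2 p))
  have hy'L : y' ∈ riemannRochSpace ((p : ℤ) • D0) := by
    rw [hy', ← Algebra.smul_def]
    exact Submodule.smul_mem _ _ hy
  -- the reductions
  set z₁ : Ft1 := R1.red ⟨f₁, hf1⟩ with hz₁
  set z₂ : Ft2 := R2.red ⟨f₂, hf2⟩ with hz₂
  have hz₁0 : z₁ ≠ 0 := red_ne_zero_of_inv_mem hf1 hf1i hf₁0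
  have hz₂0 : z₂ ≠ 0 := red_ne_zero_of_inv_mem hf2 hf2i hf₂0
  set eb : k := R2.res ⟨e ^ p, R2.A.pow_mem he p⟩ with heb
  have hr1 : R1.red ⟨y', hy'W1⟩ = algebraMap k Ft1 c₁ * z₁ ^ p := by
    have h1 : (⟨y', hy'W1⟩ : R1.Rw) = ⟨u, hu1W⟩ * ⟨f₁, hf1⟩ ^ p := Subtype.ext hy'1
    rw [h1, map_mul, map_pow, hred1]
  have hr2 : R2.red ⟨y', hy'W2⟩ = algebraMap k Ft2 (c₂ * eb) * z₂ ^ p := by
    have h1 : (⟨y', hy'W2⟩ : R2.Rw) =
        ⟨algebraMap K F (e ^ p), heW⟩ * (⟨u, hu2W⟩ * ⟨f₂, hf2⟩ ^ p) := Subtype.ext hy'2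
    have h2 : R2.red ⟨algebraMap K F (e ^ p), heW⟩ = algebraMap k Ft2 eb :=
      R2.red_algebraMap ⟨e ^ p, R2.A.pow_mem he p⟩
    rw [h1, map_mul, map_mul, map_pow R2.red ⟨f₂, hf2⟩ p, hred2, h2, map_mul]
    ring
  -- (L5): the pair of reductions is glued
  have hgl := hL5 y' hy'W1 hy'W2 hy'L
  rw [hr1, hr2] at hgl
  -- the p-th root
  obtain ⟨κ, hκ⟩ := hperf (c₁⁻¹ * (c₂ * eb))
  have hκ' : c₁ * κ ^ p = c₂ * eb := by
    rw [hκ, ← mul_assoc, mul_inv_cancel₀ hc₁, one_mul]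
  have hroot := glued_of_pow p hP hQ hc₁ hκ' hgl
  obtain ⟨d, hd⟩ := hNS _ hroot
  have hd1 : z₁ = algebraMap k Ft1 d := congrArg Prod.fst hd
  have hd2 : algebraMap k Ft2 κ * z₂ = algebraMap k Ft2 d := congrArg Prod.snd hd
  have hd0 : d ≠ 0 := by
    rintro rfl
    rw [map_zero] at hd1
    exact hz₁0 hd1
  have hκ0 : κ ≠ 0 := by
    rintro rfl
    rw [map_zero, zero_mul] at hd2
    exact hd0 ((map_eq_zero (algebraMap k Ft2)).mp hd2.symm)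
  have hz2c : z₂ = algebraMap k Ft2 (κ⁻¹ * d) := by
    rw [map_mul, ← hd2, ← mul_assoc, ← map_mul, inv_mul_cancel₀ hκ0, map_one, one_mul]
  have heb0 : c₂ * eb ≠ 0 := by
    rw [← hκ']
    exact mul_ne_zero hc₁ (pow_ne_zero p hκ0)
  constructor
  · refine isCst_of_red hy'W1 (d := c₁ * d ^ p) (mul_ne_zero hc₁ (pow_ne_zero p hd0)) ?_
    rw [hr1, hd1, map_mul, map_pow]
  · refine isCst_of_red hy'W2 (d := c₂ * eb * (κ⁻¹ * d) ^ p)
      (mul_ne_zero heb0 (pow_ne_zero p (mul_ne_zero (inv_ne_zero hκ0) hd0))) ?_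
    rw [hr2, hz2c, map_mul (algebraMap k Ft2) (c₂ * eb), map_pow]

theorem glued_swap {E₁ : Divisor k Ft1} {E₂ : Divisor k Ft2} {z : Ft2 × Ft1} :
    z ∈ glued Q P E₂ E₁ ↔ z.swap ∈ glued P Q E₁ E₂ := by
  constructor
  · rintro ⟨h1, h2, h3⟩
    exact ⟨h2, h1, fun j => by
      obtain ⟨c, hc1, hc2⟩ := h3 j
      exact ⟨c, hc2, hc1⟩⟩
  · rintro ⟨h1, h2, h3⟩
    exact ⟨h2, h1, fun j => by
      obtain ⟨c, hc1, hc2⟩ := h3 j
      exact ⟨c, hc2, hc1⟩⟩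

/-- **(★)**: an admissible `u` times a `p`-th power with poles bounded by `p • D0` is admissible up
to a constant. -/
theorem exists_isCst_smul (hc : RedCompat R1 R2) (p : ℕ) [Fact p.Prime] [CharP k p]
    (hperf : ∀ c : k, ∃ κ : k, κ ^ p = c)
    (hP : ∀ j, (P j).deg = 1) (hQ : ∀ j, (Q j).deg = 1)
    (unram1 : ∀ y : F, y ≠ 0 → ∃ c : K, c ≠ 0 ∧ algebraMap K F c * y ∈ R1.Rw ∧
      (algebraMap K F c * y)⁻¹ ∈ R1.Rw)
    (unram2 : ∀ y : F, y ≠ 0 → ∃ c : K, c ≠ 0 ∧ algebraMap K F c * y ∈ R2.Rw ∧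
      (algebraMap K F c * y)⁻¹ ∈ R2.Rw)
    {E₁ : Divisor k Ft1} {E₂ : Divisor k Ft2}
    (hNS : ∀ z ∈ glued P Q E₁ E₂, ∃ d : k, z = (algebraMap k Ft1 d, algebraMap k Ft2 d))
    {D0 : Divisor K F}
    (hL5 : ∀ (x : F) (h1 : x ∈ R1.Rw) (h2 : x ∈ R2.Rw), x ∈ riemannRochSpace ((p : ℤ) • D0) →
      (R1.red ⟨x, h1⟩, R2.red ⟨x, h2⟩) ∈ glued P Q ((p : ℤ) • E₁) ((p : ℤ) • E₂))
    {u f : F} (hu1 : IsCst R1 u) (hu2 : IsCst R2 u) (hf : f ≠ 0)
    (hy : u * f ^ p ∈ riemannRochSpace ((p : ℤ) • D0)) :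
    ∃ a : K, a ≠ 0 ∧ IsCst R1 (algebraMap K F a * (u * f ^ p)) ∧
      IsCst R2 (algebraMap K F a * (u * f ^ p)) := by
  obtain ⟨α₁, hα₁, hf1, hf1i⟩ := unram1 f hf
  obtain ⟨α₂, hα₂, hf2, hf2i⟩ := unram2 f hf
  rcases R2.A.mem_or_inv_mem (α₁ * α₂⁻¹) with he | he
  · obtain ⟨h1, h2⟩ := star_aux p hperf hP hQ hNS hL5 hu1 hu2 hf hy hα₁ hα₂ hf1 hf1i hf2 hf2i he
    exact ⟨α₁ ^ p, pow_ne_zero p hα₁, h1, h2⟩
  · have he' : α₂ * α₁⁻¹ ∈ R1.A := by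
      rw [hc.A_eq]
      have : (α₁ * α₂⁻¹)⁻¹ = α₂ * α₁⁻¹ := by rw [mul_inv, inv_inv, mul_comm]
      rwa [this] at he
    have hNS' : ∀ z ∈ glued Q P E₂ E₁, ∃ d : k, z = (algebraMap k Ft2 d, algebraMap k Ft1 d) := by
      intro z hz
      obtain ⟨d, hd⟩ := hNS _ (glued_swap.mp hz)
      refine ⟨d, ?_⟩
      have h1 : z.2 = algebraMap k Ft1 d := congrArg Prod.fst hd
      have h2 : z.1 = algebraMap k Ft2 d := congrArg Prod.snd hd
      exact Prod.ext h2 h1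
    have hL5' : ∀ (x : F) (h2 : x ∈ R2.Rw) (h1 : x ∈ R1.Rw),
        x ∈ riemannRochSpace ((p : ℤ) • D0) →
        (R2.red ⟨x, h2⟩, R1.red ⟨x, h1⟩) ∈ glued Q P ((p : ℤ) • E₂) ((p : ℤ) • E₁) :=
      fun x h2 h1 hx => glued_swap.mpr (hL5 x h1 h2 hx)
    obtain ⟨h2, h1⟩ := star_aux p hperf hQ hP hNS' hL5' hu2 hu1 hf hy hα₂ hα₁ hf2 hf2i hf1 hf1i he'
    exact ⟨α₂ ^ p, pow_ne_zero p hα₂, h1, h2⟩

/-- the glued space of a non-special pair is the constants. -/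
theorem eq_const_of_finrank_glued_eq_one {E₁ : Divisor k Ft1} {E₂ : Divisor k Ft2}
    (h1 : 0 ≤ E₁) (h2 : 0 ≤ E₂) (hns : finrank k (glued P Q E₁ E₂) = 1) :
    ∀ z ∈ glued P Q E₁ E₂, ∃ d : k, z = (algebraMap k Ft1 d, algebraMap k Ft2 d) := by
  intro z hz
  have hone : ((1 : Ft1), (1 : Ft2)) ∈ glued P Q E₁ E₂ :=
    ⟨one_mem_riemannRochSpace h1, one_mem_riemannRochSpace h2,
      fun _ => ⟨1, Fermat.Agent.GK.NodalGraded.valueAt_one,
        Fermat.Agent.GK.NodalGraded.valueAt_one⟩⟩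
  have hone' : (⟨((1 : Ft1), (1 : Ft2)), hone⟩ : glued P Q E₁ E₂) ≠ 0 := fun h0 =>
    one_ne_zero (congrArg (fun w : glued P Q E₁ E₂ => (w : Ft1 × Ft2).1) h0)
  obtain ⟨d, hd⟩ := (finrank_eq_one_iff_of_nonzero' _ hone').mp hns ⟨z, hz⟩
  refine ⟨d, ?_⟩
  have hdz : d • ((1 : Ft1), (1 : Ft2)) = z := congrArg Subtype.val hd
  rw [← hdz]
  exact Prod.ext (by rw [Prod.smul_fst, Algebra.smul_def, mul_one])
    (by rw [Prod.smul_snd, Algebra.smul_def, mul_one])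

end Star

/-! ### [KER] on a two-component disc frame -/

section Ker

variable {K F k Ft1 Ft2 Sp 𝒬 : Type*} [Field K] [Field F] [Algebra K F] [Field k]
  [Field Ft1] [Algebra k Ft1] [Field Ft2] [Algebra k Ft2] [CommRing Sp] [Algebra k Sp]
variable {R1 : RedData K F k Ft1} {R2 : RedData K F k Ft2}
variable {ι : Type*} {P : ι → Place k Ft1} {Q : ι → Place k Ft2}

/-- admissible for both valuations. -/
def Adm2 (R1 : RedData K F k Ft1) (R2 : RedData K F k Ft2) (y : F) : Prop :=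
  IsCst R1 y ∧ IsCst R2 y

/-- the hypothesis `DiscDegZero` of `GS/Loc2/KerBook` from (L5) + (NS) per chart and the fibre formula
for admissible functions. -/
theorem discDegZero_of_glued (hc : RedCompat R1 R2) (Φ : DiscData K F k Sp 𝒬) (n : ℕ)
    (p : ℕ) [Fact p.Prime] [CharP k p] (hperf : ∀ c : k, ∃ κ : k, κ ^ p = c)
    (hP : ∀ j, (P j).deg = 1) (hQ : ∀ j, (Q j).deg = 1)
    (unram1 : ∀ y : F, y ≠ 0 → ∃ c : K, c ≠ 0 ∧ algebraMap K F c * y ∈ R1.Rw ∧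
      (algebraMap K F c * y)⁻¹ ∈ R1.Rw)
    (unram2 : ∀ y : F, y ≠ 0 → ∃ c : K, c ≠ 0 ∧ algebraMap K F c * y ∈ R2.Rw ∧
      (algebraMap K F c * y)⁻¹ ∈ R2.Rw)
    (hchart : ∀ 𝔠 : Chart Φ n, ∃ (E₁ : Divisor k Ft1) (E₂ : Divisor k Ft2),
      (∀ z ∈ glued P Q E₁ E₂, ∃ d : k, z = (algebraMap k Ft1 d, algebraMap k Ft2 d)) ∧
      ∀ (x : F) (h1 : x ∈ R1.Rw) (h2 : x ∈ R2.Rw),
        x ∈ riemannRochSpace ((p : ℤ) • 𝔠.D0) →
        (R1.red ⟨x, h1⟩, R2.red ⟨x, h2⟩) ∈ glued P Q ((p : ℤ) • E₁) ((p : ℤ) • E₂))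
    (hFF : ∀ y : F, Adm2 R1 R2 y → ∀ Dy : Divisor K F, (∀ v : Place K F, Dy v = v.ord y) →
      ∀ Q' : 𝒬, ∑ P' ∈ Dy.support.filter (fun P' => P' ∈ Φ.disc Q'), Dy P' = 0) :
    DiscDegZero Φ n (Adm2 R1 R2) p := by
  intro 𝔠 u f hu0 hf0 hu hy Dy hDy i
  obtain ⟨E₁, E₂, hNS, hL5⟩ := hchart 𝔠
  obtain ⟨a, ha, h1, h2⟩ := exists_isCst_smul hc p hperf hP hQ unram1 unram2 hNS hL5 hu.1 hu.2
    hf0 hy
  refine hFF _ ⟨h1, h2⟩ Dy (fun v => ?_) (𝔠.Q i)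
  have ha' : algebraMap K F a ≠ 0 := (map_ne_zero (algebraMap K F)).mpr ha
  have hy0 : u * f ^ p ≠ 0 := mul_ne_zero hu0 (pow_ne_zero p hf0)
  rw [hDy v, v.ord_mul ha' hy0, Fermat.Agent.S24.PlaceB.ord_algebraMap v ha, zero_add]

variable [HasPrincipalDivisors K F]

/-- **[KER]** on a two-component disc frame: the classes with an admissible Kummer generator modulo
`p` have coordinates in every chart with `n = g` points. -/
theorem coordExists_of_glued (hc : RedCompat R1 R2) {Φ : DiscData K F k Sp 𝒬} (hF : DiscFacts Φ)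
    {n : ℕ} (hn : (n : ℤ) = Φ.g)
    (p : ℕ) [Fact p.Prime] [CharP k p] (hperf : ∀ c : k, ∃ κ : k, κ ^ p = c)
    (hP : ∀ j, (P j).deg = 1) (hQ : ∀ j, (Q j).deg = 1)
    (unram1 : ∀ y : F, y ≠ 0 → ∃ c : K, c ≠ 0 ∧ algebraMap K F c * y ∈ R1.Rw ∧
      (algebraMap K F c * y)⁻¹ ∈ R1.Rw)
    (unram2 : ∀ y : F, y ≠ 0 → ∃ c : K, c ≠ 0 ∧ algebraMap K F c * y ∈ R2.Rw ∧
      (algebraMap K F c * y)⁻¹ ∈ R2.Rw)
    (hchart : ∀ 𝔠 : Chart Φ n, ∃ (E₁ : Divisor k Ft1) (E₂ : Divisor k Ft2),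
      (∀ z ∈ glued P Q E₁ E₂, ∃ d : k, z = (algebraMap k Ft1 d, algebraMap k Ft2 d)) ∧
      ∀ (x : F) (h1 : x ∈ R1.Rw) (h2 : x ∈ R2.Rw),
        x ∈ riemannRochSpace ((p : ℤ) • 𝔠.D0) →
        (R1.red ⟨x, h1⟩, R2.red ⟨x, h2⟩) ∈ glued P Q ((p : ℤ) • E₁) ((p : ℤ) • E₂))
    (hFF : ∀ y : F, Adm2 R1 R2 y → ∀ Dy : Divisor K F, (∀ v : Place K F, Dy v = v.ord y) →
      ∀ Q' : 𝒬, ∑ P' ∈ Dy.support.filter (fun P' => P' ∈ Φ.disc Q'), Dy P' = 0) :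
    CoordExists Φ n (admClasses (Adm2 R1 R2) p) :=
  coordExists_of_discDegZero hF hn (Fact.out : p.Prime).pos
    (discDegZero_of_glued hc Φ n p hperf hP hQ unram1 unram2 hchart hFF)

end Ker

end Fermat.Agent.GS.Loc2.Ker
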