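/-
GATE-S (S33) / node [KER], file 4 (helper71): **[KER] on the GLUED nodal disc frame** `glueData`
(helper34/helper90 `GS/Frame/Glue/Data`): the binders `hchart`, `hFF` of `GS/Loc2/KerStar.coordExists_of_glued`
discharged from `GlueHyp`, the fibre formula `FibreHyp.fibre` of the two components, and
(L5) WITH MULTIPLICITY `p` at the chart centres (binder `hL5p`, = helper16's `Red.of_good` output).

* `inv_mem_of_red_ne_zero` : an element of `R.Rw` with nonzero reduction is a unit of `R.Rw`;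
* `fibre_adm_glue` (hFF)  : an admissible `y` has divisor of degree `0` on every good disc;
* `chart_glue` (hchart)    : for a chart `𝔠` of `glueData`, `E_i := Σ_j comp_i (𝔠.Q j)`: the glued space of
  `(E₁, E₂)` is the constants (from `𝔠.hns`), and `red2 (L(p • D0) ∩ ball2) ⊆ glued (p • E₁) (p • E₂)`;
* `coordExists_glue`       : **`CoordExists (glueData …) n (admClasses (Adm2 R1 R2) p)`**.
-/
import Mathlib
import Fermat.Agent.GS.Loc2.KerStar
import Fermat.Agent.GS.Frame.Glue.Data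
import Fermat.Agent.GS.Nodal.GluedRR

set_option autoImplicit false
set_option linter.unusedSectionVars false

noncomputable section

open AlgebraicCurve Module

namespace Fermat.Agent.GS.Loc2.Ker

open Fermat.Agent.RRh45 Fermat.Agent.GJ.J1 Fermat.Agent.GK.MultiVal Fermat.Agent.GS.Nodal.LSR2
open Fermat.Agent.GS.Frame Fermat.Agent.GS.Frame.Local Fermat.Agent.GS.Frame.Glue
open Fermat.Agent.GS.Nod Fermat.Agent.GJ.S37MinDiv

open scoped Classical

section Unit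

variable {K F k Ft : Type*} [Field K] [Field F] [Algebra K F] [Field k] [Field Ft] [Algebra k Ft]
variable {R : RedData K F k Ft}

/-- an element of `R.Rw` with nonzero reduction is a unit of `R.Rw`. -/
theorem inv_mem_of_red_ne_zero {y : F} (h : y ∈ R.Rw) (hy : R.red ⟨y, h⟩ ≠ 0) : y⁻¹ ∈ R.Rw := by
  have hu : IsUnit (⟨y, h⟩ : R.Rw) := by
    by_contra hnu
    exact hy ((R.red_eq_zero_iff _).mpr ((IsLocalRing.mem_maximalIdeal _).mpr hnu))
  obtain ⟨u, hu⟩ := hu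
  have h1 : y * ((↑u⁻¹ : R.Rw) : F) = 1 := by
    have := congrArg Subtype.val (Units.mul_inv u)
    rw [hu] at this
    exact this
  rw [← eq_inv_of_mul_eq_one_right h1]
  exact (↑u⁻¹ : R.Rw).2

theorem IsCst.mem {y : F} (h : IsCst R y) : y ∈ R.Rw := (isCst_iff.mp h).1

theorem IsCst.inv_mem {y : F} (h : IsCst R y) : y⁻¹ ∈ R.Rw := by
  obtain ⟨hy, d, hd, hred⟩ := isCst_iff.mp h
  refine inv_mem_of_red_ne_zero hy ?_
  rw [hred]
  exact fun h0 => hd ((map_eq_zero (algebraMap k Ft)).mp h0)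

/-- the reduction of an admissible function has order `0` everywhere. -/
theorem IsCst.ord_red {y : F} (h : IsCst R y) (hy : y ∈ R.Rw) (q : Place k Ft) :
    q.ord (R.red ⟨y, hy⟩) = 0 := by
  obtain ⟨hy', d, hd, hred⟩ := isCst_iff.mp h
  rw [show (⟨y, hy⟩ : R.Rw) = ⟨y, hy'⟩ from rfl, hred]
  exact Fermat.Agent.S24.PlaceB.ord_algebraMap q hd

end Unit

variable {K F k Ft1 Ft2 : Type*} [Field K] [Field F] [Algebra K F] [Field k]
  [Field Ft1] [Algebra k Ft1] [Field Ft2] [Algebra k Ft2]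
variable {R1 : RedData K F k Ft1} {R2 : RedData K F k Ft2}
variable {hc : RedCompat R1 R2} {Φ1 : FibreHyp R1} {Φ2 : FibreHyp R2} {hB2 : Φ2.B = Φ1.B}
  {hexcl : ∀ (X : Place K F) (q : Place k Ft1) (q' : Place k Ft2),
    Φ1.rOf X = some q → Φ2.rOf X ≠ some q'}
  {ι : Type*} {P : ι → Place k Ft1} {Q : ι → Place k Ft2} {g : ℤ}

/-- **(hFF)** on the glued frame: the divisor of an admissible function has degree `0` on every good
disc (the fibre formula of the component at a constant). -/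
theorem fibre_adm_glue (G : GlueHyp hc Φ1 Φ2 hB2 hexcl P Q g) (y : F) (hy : Adm2 R1 R2 y)
    (Dy : Divisor K F) (hDy : ∀ v : Place K F, Dy v = v.ord y) (Q' : SpPt Φ1 Φ2) :
    ∑ P' ∈ Dy.support.filter (fun P' => P' ∈ (glueData hc Φ1 Φ2 hB2 hexcl P Q g).disc Q'),
      Dy P' = 0 := by
  have hyB : y ∈ Φ1.B := G.ball y hy.1.mem hy.2.mem
  have hyiB : y⁻¹ ∈ Φ1.B := G.ball _ hy.1.inv_mem hy.2.inv_mem
  rcases Q' with ⟨q, hq⟩ | ⟨q, hq⟩
  · have h := Φ1.fibre y hyB hyiB Dy hDy q hq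
    rw [hy.1.ord_red] at h
    rw [h]
    refine Finset.sum_congr ?_ fun v _ => hDy v
    ext v
    simp only [Finset.mem_filter]
    rfl
  · have hyB' : y ∈ Φ2.B := mem_B2 hB2 hyB
    have hyiB' : y⁻¹ ∈ Φ2.B := mem_B2 hB2 hyiB
    have h := Φ2.fibre y hyB' hyiB' Dy hDy q hq
    rw [hy.2.ord_red] at h
    rw [h]
    refine Finset.sum_congr ?_ fun v _ => hDy v
    ext v
    simp only [Finset.mem_filter]
    rfl

theorem comp1_nonneg (s : SpPt Φ1 Φ2) : (0 : Divisor k Ft1) ≤ comp1 s := by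
  rcases s with q | q
  · exact Finsupp.single_nonneg.mpr zero_le_one
  · exact le_refl _

theorem comp2_nonneg (s : SpPt Φ1 Φ2) : (0 : Divisor k Ft2) ≤ comp2 s := by
  rcases s with q | q
  · exact le_refl _
  · exact Finsupp.single_nonneg.mpr zero_le_one

/-- **(hchart)** on the glued frame. -/
theorem chart_glue (G : GlueHyp hc Φ1 Φ2 hB2 hexcl P Q g) {n : ℕ} (p : ℕ)
    (hL5p : ∀ {J : Type} [Fintype J] (Qf : J → SpPt Φ1 Φ2), Function.Injective Qf →
      ∀ X : J → Place K F, (∀ j, X j ∈ discOf Φ1 Φ2 (Qf j)) →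
      redSpace (glueData hc Φ1 Φ2 hB2 hexcl P Q g)
          ((p : ℤ) • ∑ j, Finsupp.single (X j) (1 : ℤ)) ≤
        gluedSpace P Q ((p : ℤ) • ∑ j, comp1 (Qf j)) ((p : ℤ) • ∑ j, comp2 (Qf j)))
    (𝔠 : Chart (glueData hc Φ1 Φ2 hB2 hexcl P Q g) n) :
    ∃ (E₁ : Divisor k Ft1) (E₂ : Divisor k Ft2),
      (∀ z ∈ glued P Q E₁ E₂, ∃ d : k, z = (algebraMap k Ft1 d, algebraMap k Ft2 d)) ∧
      ∀ (x : F) (h1 : x ∈ R1.Rw) (h2 : x ∈ R2.Rw),
        x ∈ riemannRochSpace ((p : ℤ) • 𝔠.D0) →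
        (R1.red ⟨x, h1⟩, R2.red ⟨x, h2⟩) ∈ glued P Q ((p : ℤ) • E₁) ((p : ℤ) • E₂) := by
  refine ⟨∑ j, comp1 (𝔠.Q j), ∑ j, comp2 (𝔠.Q j), ?_, ?_⟩
  · -- non-speciality: the glued space is the constants
    obtain ⟨T, hT, hfin⟩ := 𝔠.hns
    have hTeq : T = Finset.univ.image 𝔠.Q := by
      apply Finset.coe_injective
      rw [hT, Finset.coe_image, Finset.coe_univ, Set.image_univ]
    have h1 : spDiv1 T = ∑ j, comp1 (𝔠.Q j) := by
      rw [spDiv1, hTeq, Finset.sum_image fun a _ b _ h => 𝔠.hQ h]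
    have h2 : spDiv2 T = ∑ j, comp2 (𝔠.Q j) := by
      rw [spDiv2, hTeq, Finset.sum_image fun a _ b _ h => 𝔠.hQ h]
    rw [h1, h2, ← Fermat.Agent.GS.Nodal.GluedRR.glued_eq_gluedSpace] at hfin
    exact eq_const_of_finrank_glued_eq_one
      (Finset.sum_nonneg fun j _ => comp1_nonneg (𝔠.Q j))
      (Finset.sum_nonneg fun j _ => comp2_nonneg (𝔠.Q j)) hfin
  · intro x h1 h2 hx
    have hxB : x ∈ Φ1.B := G.ball x h1 h2
    have hmem : (glueData hc Φ1 Φ2 hB2 hexcl P Q g).red ⟨x, hxB⟩ ∈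
        redSpace (glueData hc Φ1 Φ2 hB2 hexcl P Q g)
          ((p : ℤ) • ∑ j, Finsupp.single ((𝔠.pt j).P) (1 : ℤ)) :=
      ⟨⟨x, hxB⟩, hx, rfl⟩
    have := hL5p 𝔠.Q 𝔠.hQ (fun j => (𝔠.pt j).P) (fun j => (𝔠.pt j).hP) hmem
    rw [Fermat.Agent.GS.Nodal.GluedRR.glued_eq_gluedSpace]
    exact this

variable [HasPrincipalDivisors K F]

/-- **[KER] on the glued nodal frame**: the classes with an admissible Kummer generator modulo `p`
have coordinates in every chart with `n = g` points. -/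
theorem coordExists_glue (G : GlueHyp hc Φ1 Φ2 hB2 hexcl P Q g)
    (hF : DiscFacts (glueData hc Φ1 Φ2 hB2 hexcl P Q g)) {n : ℕ} (hn : (n : ℤ) = g)
    (p : ℕ) [Fact p.Prime] [CharP k p] (hperf : ∀ c : k, ∃ κ : k, κ ^ p = c)
    (hP : ∀ j, (P j).deg = 1) (hQ : ∀ j, (Q j).deg = 1)
    (unram1 : ∀ y : F, y ≠ 0 → ∃ c : K, c ≠ 0 ∧ algebraMap K F c * y ∈ R1.Rw ∧
      (algebraMap K F c * y)⁻¹ ∈ R1.Rw)
    (unram2 : ∀ y : F, y ≠ 0 → ∃ c : K, c ≠ 0 ∧ algebraMap K F c * y ∈ R2.Rw ∧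
      (algebraMap K F c * y)⁻¹ ∈ R2.Rw)
    (hL5p : ∀ {J : Type} [Fintype J] (Qf : J → SpPt Φ1 Φ2), Function.Injective Qf →
      ∀ X : J → Place K F, (∀ j, X j ∈ discOf Φ1 Φ2 (Qf j)) →
      redSpace (glueData hc Φ1 Φ2 hB2 hexcl P Q g)
          ((p : ℤ) • ∑ j, Finsupp.single (X j) (1 : ℤ)) ≤
        gluedSpace P Q ((p : ℤ) • ∑ j, comp1 (Qf j)) ((p : ℤ) • ∑ j, comp2 (Qf j))) :
    CoordExists (glueData hc Φ1 Φ2 hB2 hexcl P Q g) n (admClasses (Adm2 R1 R2) p) :=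
  coordExists_of_glued hc hF hn p hperf hP hQ unram1 unram2
    (fun 𝔠 => chart_glue G p hL5p 𝔠) (fun y hy Dy hDy Q' => fibre_adm_glue G y hy Dy hDy Q')

end Fermat.Agent.GS.Loc2.Ker
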