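/-
GATE-S (S33) / node [KER], file 5 (helper71): **[KER] on the NODAL instance** of the glued frame
(`Φ_i := fibreHyp{i}_of_nodal H hFF`, helper16 `GS/Nodal/{FibreHyp2,L5}`): the last frame-side binder
`hL5p` of `GS/Loc2/KerGlue.coordExists_glue` ((L5) with multiplicity `p` at the chart centres) is
discharged from helper16's padding-free inclusion `L5.redSpace2_le_glued_push` (valid for ANY
effective divisor on good places).

* `l5p_of_nodal`       : `redSpace (glueData …) (p • Σ_j X_j) ≤ gluedSpace (p • Σ comp1) (p • Σ comp2)`;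
* `coordExists_nodal`  : **`CoordExists (glueData …) n (admClasses (Adm2 R1 R2) p)`** from `GlueHyp`,
  `DiscFacts`, `n = g`, `k` perfect of characteristic `p`, nodes of degree one, both valuations
  unramified.
-/
import Mathlib
import Fermat.Agent.GS.Loc2.KerGlue
import Fermat.Agent.GS.Nodal.L5

set_option autoImplicit false
set_option linter.unusedSectionVars false

noncomputable section

open AlgebraicCurve Module

namespace Fermat.Agent.GS.Loc2.Ker

open Fermat.Agent.RRh45 Fermat.Agent.GJ.S37MinDiv Fermat.Agent.GJ.J1 Fermat.Agent.GK.MultiVal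
open Fermat.Agent.GS.Nodal.LSR2 Fermat.Agent.GS.Nodal.FibreHyp2 Fermat.Agent.GS.Nodal.ROfSurj2
open Fermat.Agent.GS.Nodal.L5
open Fermat.Agent.GS.Frame Fermat.Agent.GS.Frame.Local Fermat.Agent.GS.Frame.Glue
open Fermat.Agent.GS.Nod

open scoped Classical

variable {K F k Ft1 Ft2 : Type*} [Field K] [Field F] [Algebra K F] [Field k]
  [Field Ft1] [Algebra k Ft1] [Field Ft2] [Algebra k Ft2]
variable {R1 : RedData K F k Ft1} {R2 : RedData K F k Ft2} {hc : RedCompat R1 R2}
variable {ι : Type*} {P : ι → Place k Ft1} {Q : ι → Place k Ft2}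
variable {C : Divisor K F} {C₁ : Divisor k Ft1} {C₂ : Divisor k Ft2} {g c : ℤ} {n₀ : ℕ}
variable [FiniteResidues K F] [HasPrincipalDivisors K F] [Nonempty (Place K F)]
variable [FiniteResidues k Ft1] [HasPrincipalDivisors k Ft1] [Nonempty (Place k Ft1)]
variable [FiniteResidues k Ft2] [HasPrincipalDivisors k Ft2] [Nonempty (Place k Ft2)]
variable {S1 : Set (Place k Ft1)} {S2 : Set (Place k Ft2)}
variable (H : NodalHyp hc P Q C C₁ C₂ g c n₀) (hFF : FF2 R1 R2 (disc1 H) (disc2 H) S1 S2)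
variable [Finite ι] [Infinite k]

/-- **(L5) with multiplicity** on the nodal instance. -/
theorem l5p_of_nodal
    (hexcl : ∀ (X : Place K F) (q : Place k Ft1) (q' : Place k Ft2),
      (fibreHyp1_of_nodal H hFF).rOf X = some q → (fibreHyp2_of_nodal H hFF).rOf X ≠ some q')
    (g' : ℤ) (m : ℕ) {J : Type} [Fintype J]
    (Qf : J → SpPt (fibreHyp1_of_nodal H hFF) (fibreHyp2_of_nodal H hFF)) (X : J → Place K F)
    (hX : ∀ j, X j ∈ discOf (fibreHyp1_of_nodal H hFF) (fibreHyp2_of_nodal H hFF) (Qf j)) :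
    redSpace (glueData hc (fibreHyp1_of_nodal H hFF) (fibreHyp2_of_nodal H hFF) rfl hexcl P Q g')
        ((m : ℤ) • ∑ j, Finsupp.single (X j) (1 : ℤ)) ≤
      gluedSpace P Q ((m : ℤ) • ∑ j, comp1 (Qf j)) ((m : ℤ) • ∑ j, comp2 (Qf j)) := by
  have hZ0 : (0 : Divisor K F) ≤ ∑ j, Finsupp.single (X j) (1 : ℤ) :=
    Finset.sum_nonneg fun j _ => Finsupp.single_nonneg.mpr zero_le_one
  have hZ : (0 : Divisor K F) ≤ (m : ℤ) • ∑ j, Finsupp.single (X j) (1 : ℤ) :=
    smul_nonneg (Int.natCast_nonneg m) hZ0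
  have hgood : ∀ v ∈ ((m : ℤ) • ∑ j, Finsupp.single (X j) (1 : ℤ) : Divisor K F).support,
      GoodPlace H v := by
    intro v hv
    have hv' : v ∈ (∑ j, Finsupp.single (X j) (1 : ℤ) : Divisor K F).support :=
      Finsupp.support_smul hv
    have h1 := Finsupp.support_finsetSum hv'
    rw [Finset.mem_biUnion] at h1
    obtain ⟨j, -, hj⟩ := h1
    have h2 := Finsupp.support_single_subset hj
    rw [Finset.mem_singleton] at h2
    rw [h2]
    exact goodPlace_of_discOf H hFF (hX j)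
  refine (redSpace_glueData_le H hFF hexcl g' _).trans ?_
  have h := redSpace2_le_glued_push H hZ hgood
  rw [map_zsmul, map_zsmul, push1_sum_single H hFF Qf X hX, push2_sum_single H hFF Qf X hX] at h
  rw [gluedSpace_eq_glued]
  exact h

/-- **[KER] on the nodal instance**: the classes with an admissible Kummer generator modulo `p` have
coordinates in every chart with `n = g'` points. -/
theorem coordExists_nodal
    (hexcl : ∀ (X : Place K F) (q : Place k Ft1) (q' : Place k Ft2),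
      (fibreHyp1_of_nodal H hFF).rOf X = some q → (fibreHyp2_of_nodal H hFF).rOf X ≠ some q')
    (g' : ℤ)
    (G : GlueHyp hc (fibreHyp1_of_nodal H hFF) (fibreHyp2_of_nodal H hFF) rfl hexcl P Q g')
    (hF : DiscFacts
      (glueData hc (fibreHyp1_of_nodal H hFF) (fibreHyp2_of_nodal H hFF) rfl hexcl P Q g'))
    {n : ℕ} (hn : (n : ℤ) = g')
    (p : ℕ) [Fact p.Prime] [CharP k p] (hperf : ∀ c : k, ∃ κ : k, κ ^ p = c)
    (hP : ∀ j, (P j).deg = 1) (hQ : ∀ j, (Q j).deg = 1)
    (unram1 : ∀ y : F, y ≠ 0 → ∃ c : K, c ≠ 0 ∧ algebraMap K F c * y ∈ R1.Rw ∧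
      (algebraMap K F c * y)⁻¹ ∈ R1.Rw)
    (unram2 : ∀ y : F, y ≠ 0 → ∃ c : K, c ≠ 0 ∧ algebraMap K F c * y ∈ R2.Rw ∧
      (algebraMap K F c * y)⁻¹ ∈ R2.Rw) :
    CoordExists
      (glueData hc (fibreHyp1_of_nodal H hFF) (fibreHyp2_of_nodal H hFF) rfl hexcl P Q g') n
      (admClasses (Adm2 R1 R2) p) :=
  coordExists_glue G hF hn p hperf hP hQ unram1 unram2
    (fun Qf _ X hX => l5p_of_nodal H hFF hexcl g' p Qf X hX)

end Fermat.Agent.GS.Loc2.Ker
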