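/-
GATE-S (S33) / node [LOC²], ABSTRACT half (helper71; CELL-S DESIGN v1, board 4918 / 5003).

**From coordinate functions to the local Hopf `W`-order, and (NU).**

Frame: `A | p` a valuation subring of `ℚ̄`, `I = I_A` its inertia group, `W = wRing A = A ∩ ℚ̄^I`
(helper24, a PID with uniformiser `p`), `M` a finite abelian group with an additive action of `I`
(in the application `M = M⁰_1`, the `p`-torsion of the kernel of reduction of the nodal model).
Given a finite family of coordinate functions `T i : M → ℚ̄` which are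

* `𝔪_A`-valued                                   (`hval`;  CoordSpec, third conjunct),
* `I`-equivariant                                 (`heq`;   ONE `I`-fixed chart),
* separating                                      (`hsep`;  CoordInj),
* `Δ`-stable with coefficients in `A[T]`          (`hΔ`;    AddSpec + transition, `ord_main` shape),

the `W`-algebra `W[T] = Algebra.adjoin (wRing A) (Set.range T)` is a stable order in the inertia frame
`(W, ℚ̄^I, ℚ̄, I)` of helper5's `GH/N0/Order.IsStableOrder` (`isStableOrder_coords`), it is local at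
`𝔪_A` (`isLocalAt_coords`), hence `M` has NO `I`-stable subquotient of order `p` with trivial
`I`-action (`no_trivial_subquotient_coords` = (NU) of DESIGN v1, via helper5's
`GS/ClosureW.no_trivial_subquotient`).

Ingredients (all on main): helper24 `GH/N1Inst/{WRing,WFrame,Fg,AtoW}` (finite generation of
lattices of equivariant integral functions; the `A → W` step), helper32 `GH/Ord/Tens`,
helper5 `GS/ClosureW/*` + `GS/OrderP`.
-/
import Mathlib
import Fermat.Agent.GH.N1Inst.WFrame
import Fermat.Agent.GH.N1Inst.AtoW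
import Fermat.Agent.GH.Ord.Tens
import Fermat.Agent.GS.ClosureW.NoTriv
import Fermat.Agent.GJ.AuxL.RankOneA

set_option autoImplicit false
set_option linter.unusedSectionVars false
set_option linter.style.haveILetI false

open scoped Pointwise
open Fermat.Agent.Common_helper32 Fermat.Agent.GL.Local.InertiaField
open Fermat.Agent.GH Fermat.Agent.GH.N1Inst Fermat.Agent.GH.N0 Fermat.Agent.GS.ClosureW

namespace Fermat.Agent.GS.Loc2

noncomputable section

variable (A : ValuationSubring Qb)

/-- the maximal ideal of `A` as an additive subgroup of `ℚ̄`. -/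
def maxAddSubgroup : AddSubgroup Qb where
  carrier := {x | x ∈ A.nonunits}
  zero_mem' := by
    show (0 : Qb) ∈ A.nonunits
    rw [A.mem_nonunits_iff, map_zero]
    exact zero_lt_one
  add_mem' := by
    intro x y hx hy
    have hx' : A.valuation x < 1 := (A.mem_nonunits_iff).1 hx
    have hy' : A.valuation y < 1 := (A.mem_nonunits_iff).1 hy
    show x + y ∈ A.nonunits
    rw [A.mem_nonunits_iff]
    exact lt_of_le_of_lt (A.valuation.map_add x y) (max_lt hx' hy')
  neg_mem' := by
    intro x hx
    have hx' : A.valuation x < 1 := (A.mem_nonunits_iff).1 hx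
    show -x ∈ A.nonunits
    rw [A.mem_nonunits_iff, Valuation.map_neg]
    exact hx'

theorem mem_maxAddSubgroup {x : Qb} : x ∈ maxAddSubgroup A ↔ x ∈ A.nonunits := Iff.rfl

theorem coe_maxAddSubgroup : ((maxAddSubgroup A : AddSubgroup Qb) : Set Qb) = {x | x ∈ A.nonunits} :=
  rfl

theorem mem_A_of_mem_nonunits {x : Qb} (hx : x ∈ A.nonunits) : x ∈ A :=
  (A.valuation_le_one_iff x).1 (le_of_lt ((A.mem_nonunits_iff).1 hx))

theorem mul_mem_nonunits {a c : Qb} (ha : a ∈ A) (hc : c ∈ A.nonunits) : a * c ∈ A.nonunits := by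
  rw [A.mem_nonunits_iff, map_mul]
  have h1 : A.valuation a ≤ 1 := (A.valuation_le_one_iff a).2 ha
  have h2 : A.valuation c < 1 := (A.mem_nonunits_iff).1 hc
  calc A.valuation a * A.valuation c ≤ 1 * A.valuation c := mul_le_mul_left h1 _
    _ = A.valuation c := one_mul _
    _ < 1 := h2

/-! ### the two-variable functions -/

section Tmul

variable {M : Type*}

/-- `(x, y) ↦ a x * b y`. -/
def tmulFun (a b : M → Qb) : M × M → Qb := fun q => a q.1 * b q.2

theorem tmulFun_apply (a b : M → Qb) (x y : M) : tmulFun a b (x, y) = a x * b y := rfl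

variable {S : Type*} [CommRing S] [Algebra S Qb]

theorem tmulFun_mem_tens {𝓗 : Subalgebra S (M → Qb)} {a b : M → Qb} (ha : a ∈ 𝓗) (hb : b ∈ 𝓗) :
    tmulFun a b ∈ tens 𝓗 :=
  ⟨PUnit, inferInstance, fun _ => a, fun _ => b, fun _ => ha, fun _ => hb, fun _ _ => by
    simp [tmulFun]⟩

end Tmul

/-! ### the order -/

section Order

variable {p : ℕ} (hp : p.Prime) (hA : (p : Qb) ∈ A.nonunits)
variable {M : Type*} [AddCommGroup M] [Finite M]
variable (act : ↥(A.inertiaSubgroupIn ℚ) → M → M)
variable {ι : Type*} (T : ι → M → Qb)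

/-- the `W`-order generated by the coordinates. -/
def coordOrder : Subalgebra (wRing A) (M → Qb) := Algebra.adjoin (wRing A) (Set.range T)

omit [AddCommGroup M] [Finite M] in
theorem coord_mem (i : ι) : T i ∈ coordOrder A T := Algebra.subset_adjoin ⟨i, rfl⟩

omit [AddCommGroup M] [Finite M] in
/-- values of `W[T]` lie in `A`. -/
theorem coordOrder_val (hval : ∀ i x, T i x ∈ A.nonunits) :
    ∀ f ∈ coordOrder A T, ∀ x, f x ∈ A := by
  intro f hf
  induction hf using Algebra.adjoin_induction with
  | mem f hf =>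
    obtain ⟨i, rfl⟩ := hf
    exact fun x => mem_A_of_mem_nonunits A (hval i x)
  | algebraMap r => exact fun x => r.2.1
  | add f g _ _ hf hg => exact fun x => A.add_mem _ _ (hf x) (hg x)
  | mul f g _ _ hf hg => exact fun x => A.mul_mem _ _ (hf x) (hg x)

omit [AddCommGroup M] [Finite M] in
/-- `W[T]` consists of `I`-equivariant functions. -/
theorem coordOrder_equivariant (heq : ∀ i σ x, T i (act σ x) = σ • T i x) :
    ∀ f ∈ coordOrder A T, ∀ σ x, f (act σ x) = σ • f x := by
  intro f hf
  induction hf using Algebra.adjoin_induction with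
  | mem f hf =>
    obtain ⟨i, rfl⟩ := hf
    exact heq i
  | algebraMap r =>
    intro σ x
    exact (r.2.2 σ.1 σ.2).symm
  | add f g _ _ hf hg =>
    intro σ x
    rw [Pi.add_apply, Pi.add_apply, hf σ x, hg σ x, smul_add]
  | mul f g _ _ hf hg =>
    intro σ x
    rw [Pi.mul_apply, Pi.mul_apply, hf σ x, hg σ x, smul_mul']

omit [AddCommGroup M] [Finite M] in
/-- `W[T] ⊆ A[T]`. -/
theorem coordOrder_le_adjoin : ∀ f ∈ coordOrder A T, f ∈ Algebra.adjoin A (Set.range T) := by
  intro f hf
  induction hf using Algebra.adjoin_induction with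
  | mem f hf => exact Algebra.subset_adjoin hf
  | algebraMap r => exact (Algebra.adjoin A (Set.range T)).algebraMap_mem ⟨(r : Qb), r.2.1⟩
  | add f g _ _ hf hg => exact (Algebra.adjoin A (Set.range T)).add_mem hf hg
  | mul f g _ _ hf hg => exact (Algebra.adjoin A (Set.range T)).mul_mem hf hg

omit [AddCommGroup M] [Finite M] in
/-- the `A`-span of a subalgebra of functions is closed under multiplication. -/
theorem span_mul_mem' (HO : Subalgebra (wRing A) (M → Qb)) {f g : M → Qb}
    (hf : f ∈ Submodule.span A.toSubring (HO : Set (M → Qb)))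
    (hg : g ∈ Submodule.span A.toSubring (HO : Set (M → Qb))) :
    f * g ∈ Submodule.span A.toSubring (HO : Set (M → Qb)) := by
  induction hf using Submodule.span_induction with
  | mem f hf' =>
    induction hg using Submodule.span_induction with
    | mem g hg' => exact Submodule.subset_span (HO.mul_mem hf' hg')
    | zero => rw [mul_zero]; exact Submodule.zero_mem _
    | add g g' _ _ hg hg' => rw [mul_add]; exact Submodule.add_mem _ hg hg'
    | smul a g _ hg =>
      rw [mul_smul_comm]
      exact Submodule.smul_mem _ _ hg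
  | zero => rw [zero_mul]; exact Submodule.zero_mem _
  | add f f' _ _ hf hf' => rw [add_mul]; exact Submodule.add_mem _ hf hf'
  | smul a f _ hf =>
    rw [smul_mul_assoc]
    exact Submodule.smul_mem _ _ hf

omit [AddCommGroup M] [Finite M] in
/-- `A[T]` is contained in the `A`-span of `W[T]`. -/
theorem adjoin_le_span' : ∀ f ∈ Algebra.adjoin A (Set.range T),
    f ∈ Submodule.span A.toSubring (coordOrder A T : Set (M → Qb)) := by
  intro f hf
  induction hf using Algebra.adjoin_induction with
  | mem f hf => exact Submodule.subset_span (Algebra.subset_adjoin hf)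
  | algebraMap r =>
    have h1 : algebraMap A (M → Qb) r = (⟨(r : Qb), r.2⟩ : A.toSubring) • (1 : M → Qb) := by
      funext x
      simp [Pi.algebraMap_apply, Subring.smul_def]
    rw [h1]
    exact Submodule.smul_mem _ _ (Submodule.subset_span (coordOrder A T).one_mem)
  | add f g _ _ hf hg => exact Submodule.add_mem _ hf hg
  | mul f g _ _ hf hg => exact span_mul_mem' A _ hf hg

omit [AddCommGroup M] [Finite M] in
/-- products of elements of the `A`-span of `HO` lie in the `A`-span of `tens HO`. -/
theorem tmulFun_mem_span (HO : Subalgebra (wRing A) (M → Qb)) {a b : M → Qb}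
    (ha : a ∈ Submodule.span A.toSubring (HO : Set (M → Qb)))
    (hb : b ∈ Submodule.span A.toSubring (HO : Set (M → Qb))) :
    tmulFun a b ∈ Submodule.span A.toSubring
      ((Subalgebra.toSubmodule (tens HO) : Submodule (wRing A) (M × M → Qb)) : Set (M × M → Qb)) := by
  induction ha using Submodule.span_induction with
  | mem a ha' =>
    induction hb using Submodule.span_induction with
    | mem b hb' => exact Submodule.subset_span (tmulFun_mem_tens ha' hb')
    | zero =>
      have : tmulFun a (0 : M → Qb) = 0 := by funext q; simp [tmulFun]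
      rw [this]; exact Submodule.zero_mem _
    | add b b' _ _ hb hb' =>
      have : tmulFun a (b + b') = tmulFun a b + tmulFun a b' := by
        funext q; simp [tmulFun, mul_add]
      rw [this]; exact Submodule.add_mem _ hb hb'
    | smul r b _ hb =>
      have : tmulFun a (r • b) = r • tmulFun a b := by
        funext q
        simp only [tmulFun, Pi.smul_apply, Subring.smul_def, smul_eq_mul]
        ring
      rw [this]; exact Submodule.smul_mem _ _ hb
  | zero =>
    have : tmulFun (0 : M → Qb) b = 0 := by funext q; simp [tmulFun]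
    rw [this]; exact Submodule.zero_mem _
  | add a a' _ _ ha ha' =>
    have : tmulFun (a + a') b = tmulFun a b + tmulFun a' b := by
      funext q; simp [tmulFun, add_mul]
    rw [this]; exact Submodule.add_mem _ ha ha'
  | smul r a _ ha =>
    have : tmulFun (r • a) b = r • tmulFun a b := by
      funext q
      simp only [tmulFun, Pi.smul_apply, Subring.smul_def, smul_eq_mul]
      ring
    rw [this]; exact Submodule.smul_mem _ _ ha


/-! ### frame facts for `Γ = I_A`, `W = wRing A`, `Ao = A` -/

omit [AddCommGroup M] [Finite M] in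
theorem wRing_le : wRing A ≤ A.toSubring := fun _ hx => hx.1

theorem fixed_mem_wRing (a : Qb) (ha : a ∈ A.toSubring)
    (h : ∀ σ : ↥(A.inertiaSubgroupIn ℚ), σ • a = a) : a ∈ wRing A :=
  ⟨ha, fun σ hσ => h ⟨σ, hσ⟩⟩

theorem natCast_fixed (σ : ↥(A.inertiaSubgroupIn ℚ)) : σ • ((p : ℕ) : Qb) = ((p : ℕ) : Qb) :=
  map_natCast σ.1 p

include hp hA in
theorem exists_pow_mul_mem (c : Qb) : ∃ n : ℕ, ((p : ℕ) : Qb) ^ n * c ∈ A.toSubring := by
  by_cases hc : c = 0
  · exact ⟨0, by rw [hc, mul_zero]; exact A.zero_mem⟩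
  obtain ⟨n, hn⟩ := Fermat.Agent.GJ.AuxL.RankOneA.exists_pow_div_mem A hp hA
    ((A.mem_nonunits_iff).1 hA) (inv_ne_zero hc)
  refine ⟨n, ?_⟩
  rw [div_inv_eq_mul] at hn
  exact hn

include hp hA in
theorem exists_pow_mul_mem_wRing (a : Qb) (h : ∀ σ : ↥(A.inertiaSubgroupIn ℚ), σ • a = a) :
    ∃ n : ℕ, ((p : ℕ) : Qb) ^ n * a ∈ wRing A :=
  wRing_W2' A hp hA a fun σ hσ => h ⟨σ, hσ⟩

/-- the diagonal action on `M × M`. -/
def act2 (σ : ↥(A.inertiaSubgroupIn ℚ)) (q : M × M) : M × M := (act σ q.1, act σ q.2)

omit [AddCommGroup M] [Finite M] in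
theorem act2_surjective (hsurj : ∀ σ, Function.Surjective (act σ)) (σ) :
    Function.Surjective (act2 A act σ) := by
  rintro ⟨x, y⟩
  obtain ⟨x', rfl⟩ := hsurj σ x
  obtain ⟨y', rfl⟩ := hsurj σ y
  exact ⟨(x', y'), rfl⟩

omit [AddCommGroup M] [Finite M] in
/-- elements of `tens W[T]` are `A`-valued. -/
theorem tens_val (hval : ∀ i x, T i x ∈ A.nonunits) :
    ∀ φ ∈ tens (coordOrder A T), ∀ q, φ q ∈ A.toSubring := by
  rintro φ ⟨κ, _, a, b, ha, hb, h⟩ ⟨x, y⟩
  rw [h]
  exact A.toSubring.sum_mem fun i _ =>
    A.mul_mem _ _ (coordOrder_val A T hval _ (ha i) x) (coordOrder_val A T hval _ (hb i) y)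

omit [AddCommGroup M] [Finite M] in
/-- elements of `tens W[T]` are equivariant for the diagonal action. -/
theorem tens_equivariant (heq : ∀ i σ x, T i (act σ x) = σ • T i x) :
    ∀ φ ∈ tens (coordOrder A T), ∀ σ q, φ (act2 A act σ q) = σ • φ q := by
  rintro φ ⟨κ, _, a, b, ha, hb, h⟩ σ ⟨x, y⟩
  show φ (act σ x, act σ y) = σ • φ (x, y)
  rw [h, h, Finset.smul_sum]
  refine Finset.sum_congr rfl fun i _ => ?_
  rw [coordOrder_equivariant A act T heq _ (ha i) σ x,
    coordOrder_equivariant A act T heq _ (hb i) σ y, smul_mul']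

include hp hA in
/-- **finite generation** of `W[T]` (helper24's `fg_of_equivariant_integral`). -/
theorem coordOrder_fg (hsurj : ∀ σ, Function.Surjective (act σ))
    (hval : ∀ i x, T i x ∈ A.nonunits) (heq : ∀ i σ x, T i (act σ x) = σ • T i x) :
    (Subalgebra.toSubmodule (coordOrder A T)).FG := by
  haveI := isNoetherianRing_wRing A hp hA
  have hp0 : ((p : ℕ) : Qb) ≠ 0 := by exact_mod_cast hp.ne_zero
  exact fg_of_equivariant_integral (wRing A) A.toSubring (wRing_le A) (fixed_mem_wRing A)
    ((p : ℕ) : Qb) (natCast_mem_wRing A p) hp0 (natCast_fixed A) (exists_pow_mul_mem A hp hA)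
    act hsurj _ (fun f hf x => coordOrder_val A T hval f hf x)
    (fun f hf σ x => coordOrder_equivariant A act T heq f hf σ x)

include hp hA in
/-- finite generation of `tens W[T]`. -/
theorem tens_fg (hsurj : ∀ σ, Function.Surjective (act σ))
    (hval : ∀ i x, T i x ∈ A.nonunits) (heq : ∀ i σ x, T i (act σ x) = σ • T i x) :
    (Subalgebra.toSubmodule (tens (coordOrder A T))).FG := by
  haveI := isNoetherianRing_wRing A hp hA
  have hp0 : ((p : ℕ) : Qb) ≠ 0 := by exact_mod_cast hp.ne_zero
  exact fg_of_equivariant_integral (wRing A) A.toSubring (wRing_le A) (fixed_mem_wRing A)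
    ((p : ℕ) : Qb) (natCast_mem_wRing A p) hp0 (natCast_fixed A) (exists_pow_mul_mem A hp hA)
    (act2 A act) (act2_surjective A act hsurj) _ (fun φ hφ q => tens_val A T hval φ hφ q)
    (fun φ hφ σ q => tens_equivariant A act T heq φ hφ σ q)

include hp hA in
/-- **`Δ`-stability over `W`**: the `A → W` step of helper24 on `M × M`. -/
theorem coordOrder_delta (hadd : ∀ σ x y, act σ (x + y) = act σ x + act σ y)
    (hsurj : ∀ σ, Function.Surjective (act σ))
    (hval : ∀ i x, T i x ∈ A.nonunits) (heq : ∀ i σ x, T i (act σ x) = σ • T i x)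
    (hΔ : ∀ j, (fun q : M × M => T j (q.1 + q.2)) ∈ tens (Algebra.adjoin A (Set.range T))) :
    ∀ f ∈ coordOrder A T, (fun q : M × M => f (q.1 + q.2)) ∈ tens (coordOrder A T) := by
  intro f hf
  haveI := isPrincipalIdealRing_wRing A hp hA
  have hp0 : ((p : ℕ) : Qb) ≠ 0 := by exact_mod_cast hp.ne_zero
  -- `Δ` over `A`
  have hall := comp_add_mem_tens_of_generators (A := A) (Set.range T)
    (by rintro _ ⟨j, rfl⟩; exact hΔ j)
  obtain ⟨κ, _, a, b, ha, hb, hab⟩ := hall f (coordOrder_le_adjoin A T f hf)
  -- membership in the `A`-span of `tens W[T]`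
  have hspan : (fun q : M × M => f (q.1 + q.2)) ∈ Submodule.span A.toSubring
      ((Subalgebra.toSubmodule (tens (coordOrder A T)) :
        Submodule (wRing A) (M × M → Qb)) : Set (M × M → Qb)) := by
    have h1 : (fun q : M × M => f (q.1 + q.2)) = ∑ i, tmulFun (a i) (b i) := by
      funext q
      obtain ⟨x, y⟩ := q
      rw [Finset.sum_apply]
      exact hab x y
    rw [h1]
    exact Submodule.sum_mem _ fun i _ =>
      tmulFun_mem_span A _ (adjoin_le_span' A T _ (ha i)) (adjoin_le_span' A T _ (hb i))
  -- equivariance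
  have hfeq : ∀ σ q, (fun q : M × M => f (q.1 + q.2)) (act2 A act σ q) =
      σ • (fun q : M × M => f (q.1 + q.2)) q := by
    intro σ q
    show f (act σ q.1 + act σ q.2) = σ • f (q.1 + q.2)
    rw [← hadd, coordOrder_equivariant A act T heq f hf]
  exact mem_of_mem_span_of_equivariant (wRing A) A.toSubring (wRing_le A) (fixed_mem_wRing A)
    ((p : ℕ) : Qb) (natCast_mem_wRing A p) hp0 (exists_pow_mul_mem_wRing A hp hA)
    (act2 A act) (act2_surjective A act hsurj) _ (tens_fg A hp hA act T hsurj hval heq)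
    (fun φ hφ σ q => tens_equivariant A act T heq φ hφ σ q) _ hspan hfeq


/-! ### the three exports -/

include hp hA in
/-- **[LOC²], abstract form**: the `W`-algebra generated by `𝔪_A`-valued, `I`-equivariant,
separating, `Δ`-stable coordinates is a stable order in the inertia frame `(W, ℚ̄^I, ℚ̄, I)`. -/
theorem isStableOrder_coords [Finite ι] (hadd : ∀ σ x y, act σ (x + y) = act σ x + act σ y)
    (hsurj : ∀ σ, Function.Surjective (act σ))
    (hval : ∀ i x, T i x ∈ A.nonunits) (heq : ∀ i σ x, T i (act σ x) = σ • T i x)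
    (hsep : ∀ x y : M, x ≠ y → ∃ i, T i x ≠ T i y)
    (hΔ : ∀ j, (fun q : M × M => T j (q.1 + q.2)) ∈ tens (Algebra.adjoin A (Set.range T))) :
    letI := algebraWF A
    haveI := isScalarTower_WFQb A
    haveI := isFractionRing_WF A hp hA
    haveI := isPrincipalIdealRing_wRing A hp hA
    IsStableOrder (inertiaField A) act (coordOrder A T) := by
  have hact0 : ∀ σ, act σ 0 = 0 := by
    intro σ
    have h := hadd σ 0 0
    rw [add_zero] at h
    exact left_eq_add.mp h
  have hfg : Module.Finite (wRing A) (coordOrder A T) :=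
    Module.Finite.iff_fg.2 (coordOrder_fg A hp hA act T hsurj hval heq)
  refine isStableOrder_W A hp hA act (coordOrder A T) hact0
    (fun f hf σ x => coordOrder_equivariant A act T heq f hf σ x) hfg
    (fun x y hxy => ?_) (fun f hf => ?_)
  · obtain ⟨i, hi⟩ := hsep x y hxy
    exact ⟨T i, coord_mem A T i, hi⟩
  · obtain ⟨m, a, b, ha, hb, hab⟩ :=
      exists_fin_of_mem_tens (coordOrder_delta A hp hA act T hadd hsurj hval heq hΔ f hf)
    exact ⟨m, fun i => ⟨a i, ha i⟩, fun i => ⟨b i, hb i⟩, fun x y => hab x y⟩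

/-- `W[T]` is local at `𝔪_A`: all its elements are congruent to their value at `0`. -/
theorem isLocalAt_coords (hval : ∀ i x, T i x ∈ A.nonunits) :
    IsLocalAt ((maxAddSubgroup A : AddSubgroup Qb) : Set Qb) (coordOrder A T) := by
  refine isLocalAt_adjoin A.toSubring (fun r => r.2.1) (maxAddSubgroup A)
    (fun a ha c hc => mul_mem_nonunits A ha hc) (fun c hc => mem_A_of_mem_nonunits A hc)
    (Set.range T) ?_
  rintro _ ⟨i, rfl⟩ x
  exact hval i x

include hp hA in
/-- **(NU)**: a finite `I`-module carrying `𝔪_A`-valued, `I`-equivariant, separating, `Δ`-stable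
coordinates has no `I`-stable subquotient of order `p` with trivial `I`-action (`p` odd). -/
theorem no_trivial_subquotient_coords [Finite ι] (hodd : Odd p)
    (hadd : ∀ σ x y, act σ (x + y) = act σ x + act σ y)
    (hsurj : ∀ σ, Function.Surjective (act σ))
    (hval : ∀ i x, T i x ∈ A.nonunits) (heq : ∀ i σ x, T i (act σ x) = σ • T i x)
    (hsep : ∀ x y : M, x ≠ y → ∃ i, T i x ≠ T i y)
    (hΔ : ∀ j, (fun q : M × M => T j (q.1 + q.2)) ∈ tens (Algebra.adjoin A (Set.range T))) :
    ¬ ∃ Y1 Y2 : AddSubgroup M, Y2 < Y1 ∧ (∀ σ, ∀ y ∈ Y1, act σ y ∈ Y1) ∧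
      (∀ y ∈ Y1, p • y ∈ Y2) ∧ ∀ σ, ∀ y ∈ Y1, act σ y - y ∈ Y2 := by
  letI := algebraWF A
  haveI := isScalarTower_WFQb A
  haveI := isFractionRing_WF A hp hA
  haveI := isPrincipalIdealRing_wRing A hp hA
  have h := isStableOrder_coords A hp hA act T hadd hsurj hval heq hsep hΔ
  have hpr : Prime ((p : ℕ) : wRing A) := natCast_prime_wRing A hp hA
  refine no_trivial_subquotient h p hpr (not_dvd_two_of_odd hpr hodd)
    ((maxAddSubgroup A : AddSubgroup Qb) : Set Qb) (isLocalAt_coords A T hval) ?_
  intro r hr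
  exact dvd_of_mem_nonunits A hp hA r hr

end Order

end

end Fermat.Agent.GS.Loc2
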