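/-
GATE-S (S33) / node [LOC²], CHART half in ABSTRACT form (helper71; CELL-S DESIGN v1, board 4918 / 5003 / 5066).

**From a chart system to the coordinate functions of `GS/Loc2/Abs`, and (NU).**

This is the frame-free port of helper32's `GH/Ord/Main` (`transition` + the coordinate part of `ord_main`,
with TRIVIAL cosets: every class of the module lies in the kernel of reduction).  A *chart system* is

* a type `Ch` of charts, a relation `Disj` ("disjoint special supports"),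
* a predicate `IsCo 𝔠 ξ τ` ("`τ : Fin n → K` are the coordinates of the class `ξ : P` in the chart `𝔠`"),
* an additive subgroup `Ker ≤ P` (the classes which have coordinates),

with the four node contracts of `GH/Vocab` in verbatim shape: `CoordSpecA` (existence, uniqueness,
values in `𝔪_A`), `CoordInjA`, `ChartSupplyA`, `AddSpecA`, plus `IsCo 𝔠 0 0`.

* `transitionA` : coordinates in one chart are `A`-polynomial in the coordinates in any other chart.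
* `coords_of_charts` : for a finite group `M` with an injective additive map `ι : M →+ P` into `Ker` and
  ONE chart `𝔠₀`, the coordinate functions `T i x` of `ι x` satisfy (hval) (hsep) (hΔ) of `GS/Loc2/Abs`.
* `coords_equivariant` : (heq) from the Galois equivariance of `IsCo` on the `I`-fixed chart `𝔠₀`.
* `no_trivial_subquotient_of_charts` : (NU) for `M` in ONE theorem (`K = ℚ̄`, `I = I_A`).

So [LOC²-INST] on the nodal frame = instantiate `Ch := Chart²`, `IsCo := IsCoord²`,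
`Disj 𝔞 𝔟 := Disjoint 𝔞.supp 𝔟.supp`, `Ker := M⁰_1` (or the kernel of reduction).
-/
import Mathlib
import Fermat.Agent.GS.Loc2.Abs

set_option autoImplicit false
set_option linter.unusedSectionVars false
set_option linter.style.haveILetI false

open Fermat.Agent.Common_helper32
open Fermat.Agent.GH

namespace Fermat.Agent.GS.Loc2

noncomputable section

universe u v w

section Sys

variable {P : Type w} [AddCommGroup P] {K : Type} [Field K] (A : ValuationSubring K) {n : ℕ}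
  {Ch : Type v} (IsCo : Ch → P → (Fin n → K) → Prop) (Disj : Ch → Ch → Prop) (Ker : AddSubgroup P)

/-- CONTRACT (node L): existence, uniqueness and `𝔪_A`-values of coordinates on `Ker`
(`GH.CoordSpec` verbatim). -/
def CoordSpecA : Prop :=
  ∀ 𝔠 : Ch, ∀ ξ ∈ Ker,
    (∃ τ, IsCo 𝔠 ξ τ) ∧ (∀ τ τ', IsCo 𝔠 ξ τ → IsCo 𝔠 ξ τ' → τ = τ') ∧
      ∀ τ, IsCo 𝔠 ξ τ → ∀ i, A.valuation (τ i) < 1

/-- CONTRACT (nodes V + L): the coordinates determine the class (`GH.CoordInj` verbatim). -/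
def CoordInjA : Prop :=
  ∀ (𝔠 : Ch) (ξ ξ' : P) (τ : Fin n → K), IsCo 𝔠 ξ τ → IsCo 𝔠 ξ' τ → ξ = ξ'

/-- CONTRACT (nodes G + L): a chart disjoint from finitely many given ones. -/
def ChartSupplyA : Prop :=
  ∀ S : Finset Ch, ∃ 𝔠 : Ch, ∀ 𝔞 ∈ S, Disj 𝔞 𝔠 ∧ Disj 𝔠 𝔞

/-- CONTRACT (node ADD) (`GH.AddSpec` verbatim, the index type `Z` in the universe `u`). -/
def AddSpecA : Prop :=
  ∀ (𝔞 𝔟 𝔠 : Ch), Disj 𝔞 𝔟 → Disj 𝔞 𝔠 → Disj 𝔟 𝔠 →
    ∀ (Z : Type u) [Finite Z] (ξ η : Z → P) (τ σ μ : Z → Fin n → K),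
      (∀ z, IsCo 𝔞 (ξ z) (τ z)) → (∀ z, IsCo 𝔟 (η z) (σ z)) →
      (∀ z, IsCo 𝔠 (ξ z + η z) (μ z)) →
      ∀ j, (fun z => μ z j) ∈
        Algebra.adjoin A ({f : Z → K | ∃ i, f = fun z => τ z i} ∪ {f | ∃ i, f = fun z => σ z i})

variable {A IsCo Disj Ker}

/-- adjoining zero functions changes nothing. -/
theorem adjoin_union_zero_le' {B : Type*} [CommRing B] [Algebra A B]
    (S S0 : Set B) (h0 : ∀ f ∈ S0, f = 0) : Algebra.adjoin A (S ∪ S0) ≤ Algebra.adjoin A S := by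
  refine Algebra.adjoin_le ?_
  rintro f (hf | hf)
  · exact Algebra.subset_adjoin hf
  · rw [h0 f hf]; exact (Algebra.adjoin A S).zero_mem

/-- **(O1) transition between charts** (port of `GH.transition`). -/
theorem transitionA (hco : CoordSpecA A IsCo Ker) (hsup : ChartSupplyA Disj)
    (hadd : AddSpecA.{u} A IsCo Disj) (hzero : ∀ 𝔠, IsCo 𝔠 0 (fun _ => 0))
    (𝔞 𝔠 : Ch) (Z : Type u) [Finite Z] (ξ : Z → P) (hξ : ∀ z, ξ z ∈ Ker)
    (τ μ : Z → Fin n → K)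
    (hτ : ∀ z, IsCo 𝔞 (ξ z) (τ z)) (hμ : ∀ z, IsCo 𝔠 (ξ z) (μ z)) (j : Fin n) :
    (fun z => μ z j) ∈ Algebra.adjoin A {f : Z → K | ∃ i, f = fun z => τ z i} := by
  classical
  obtain ⟨𝔢, h𝔢⟩ := hsup {𝔞, 𝔠}
  obtain ⟨𝔟, h𝔟⟩ := hsup {𝔞, 𝔢}
  obtain ⟨𝔟', h𝔟'⟩ := hsup {𝔢, 𝔠}
  have h𝔞𝔢 := h𝔢 𝔞 (by simp)
  have h𝔠𝔢 := h𝔢 𝔠 (by simp)
  have h𝔞𝔟 := h𝔟 𝔞 (by simp)
  have h𝔢𝔟 := h𝔟 𝔢 (by simp)
  have h𝔢𝔟' := h𝔟' 𝔢 (by simp)
  have h𝔠𝔟' := h𝔟' 𝔠 (by simp)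
  choose ε hε using fun z => (hco 𝔢 (ξ z) (hξ z)).1
  -- first step: 𝔞 → 𝔢
  have h1 : ∀ i, (fun z => ε z i) ∈ Algebra.adjoin A {f : Z → K | ∃ i, f = fun z => τ z i} := by
    intro i
    have := hadd 𝔞 𝔟 𝔢 h𝔞𝔟.1 h𝔞𝔢.1 h𝔢𝔟.2
      Z ξ (fun _ => 0) τ (fun _ _ => 0) ε hτ (fun _ => hzero 𝔟)
      (fun z => by simpa using hε z) i
    exact adjoin_union_zero_le' _ _ (by rintro f ⟨i, rfl⟩; rfl) this
  -- second step: 𝔢 → 𝔠
  have h2 := hadd 𝔢 𝔟' 𝔠 h𝔢𝔟'.1 h𝔠𝔢.2 h𝔠𝔟'.2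
    Z ξ (fun _ => 0) ε (fun _ _ => 0) μ hε (fun _ => hzero 𝔟')
    (fun z => by simpa using hμ z) j
  have h3 := adjoin_union_zero_le' (A := A) {f : Z → K | ∃ i, f = fun z => ε z i}
    {f : Z → K | ∃ i : Fin n, f = fun _ => (0 : K)} (by rintro f ⟨i, rfl⟩; rfl) h2
  refine (Algebra.adjoin_le ?_ : Algebra.adjoin A {f : Z → K | ∃ i, f = fun z => ε z i} ≤ _) h3
  rintro f ⟨i, rfl⟩
  exact h1 i

/-- **(O2)+(O3) with trivial cosets**: the coordinate functions of a finite group of classes in ONE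
chart are `𝔪_A`-valued, separating and `Δ`-stable with coefficients in `A[T]`. -/
theorem coords_of_charts (hco : CoordSpecA A IsCo Ker) (hinj : CoordInjA IsCo)
    (hsup : ChartSupplyA Disj) (hadd : AddSpecA.{u} A IsCo Disj)
    (hzero : ∀ 𝔠, IsCo 𝔠 0 (fun _ => 0))
    {M : Type u} [AddCommGroup M] [Finite M] (ι : M →+ P) (hι : Function.Injective ι)
    (hKer : ∀ x, ι x ∈ Ker) (𝔠₀ : Ch) (T : Fin n → M → K)
    (hT : ∀ x : M, IsCo 𝔠₀ (ι x) (fun i => T i x)) :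
    (∀ i x, T i x ∈ A.nonunits) ∧
    (∀ x y : M, x ≠ y → ∃ i, T i x ≠ T i y) ∧
    ∀ j, (fun q : M × M => T j (q.1 + q.2)) ∈ tens (Algebra.adjoin A (Set.range T)) := by
  classical
  set 𝓗 := Algebra.adjoin A (Set.range T) with h𝓗
  have hTmem : ∀ i, T i ∈ 𝓗 := fun i => Algebra.subset_adjoin ⟨i, rfl⟩
  refine ⟨?_, ?_, ?_⟩
  · intro i x
    rw [A.mem_nonunits_iff]
    exact (hco 𝔠₀ _ (hKer x)).2.2 _ (hT x) i
  · intro x y hxy
    by_contra hno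
    push Not at hno
    have hTeq : (fun i => T i x) = fun i => T i y := funext fun i => hno i
    have h1 := hT x
    rw [hTeq] at h1
    exact hxy (hι (hinj 𝔠₀ _ _ _ h1 (hT y)))
  · intro j
    -- the charts
    obtain ⟨𝔢, h𝔢⟩ := hsup {𝔠₀}
    obtain ⟨𝔡, h𝔡⟩ := hsup {𝔠₀, 𝔢}
    obtain ⟨𝔞, h𝔞⟩ := hsup {𝔢}
    obtain ⟨𝔟, h𝔟⟩ := hsup {𝔢, 𝔞}
    have h𝔠𝔢 := h𝔢 𝔠₀ (by simp)
    have h𝔠𝔡 := h𝔡 𝔠₀ (by simp)
    have h𝔢𝔡 := h𝔡 𝔢 (by simp)
    have h𝔢𝔞 := h𝔞 𝔢 (by simp)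
    have h𝔢𝔟 := h𝔟 𝔢 (by simp)
    have h𝔞𝔟 := h𝔟 𝔞 (by simp)
    -- the classes
    set ξ : M × M → P := fun z => ι z.1 with hξd
    set η : M × M → P := fun z => ι z.2 with hηd
    have hξ : ∀ z, ξ z ∈ Ker := fun z => hKer z.1
    have hη : ∀ z, η z ∈ Ker := fun z => hKer z.2
    choose α hα using fun z => (hco 𝔞 (ξ z) (hξ z)).1
    choose β hβ using fun z => (hco 𝔟 (η z) (hη z)).1
    choose ε hε using fun z => (hco 𝔢 (ξ z + η z) (Ker.add_mem (hξ z) (hη z))).1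
    have hα𝒯 : ∀ i, (fun z : M × M => α z i) ∈ tens 𝓗 := by
      intro i
      have := transitionA hco hsup hadd hzero 𝔠₀ 𝔞 (M × M) ξ hξ (fun z i => T i z.1) α
        (fun z => hT z.1) hα i
      refine (Algebra.adjoin_le ?_ : Algebra.adjoin A _ ≤ tens 𝓗) this
      rintro f ⟨i, rfl⟩
      exact comp_fst_mem_tens (hTmem i)
    have hβ𝒯 : ∀ i, (fun z : M × M => β z i) ∈ tens 𝓗 := by
      intro i
      have := transitionA hco hsup hadd hzero 𝔠₀ 𝔟 (M × M) η hη (fun z i => T i z.2) β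
        (fun z => hT z.2) hβ i
      refine (Algebra.adjoin_le ?_ : Algebra.adjoin A _ ≤ tens 𝓗) this
      rintro f ⟨i, rfl⟩
      exact comp_snd_mem_tens (hTmem i)
    have hε𝒯 : ∀ i, (fun z : M × M => ε z i) ∈ tens 𝓗 := by
      intro i
      have := hadd 𝔞 𝔟 𝔢 h𝔞𝔟.1 h𝔢𝔞.2 h𝔢𝔟.2
        (M × M) ξ η α β ε hα hβ hε i
      refine (Algebra.adjoin_le ?_ : Algebra.adjoin A _ ≤ tens 𝓗) this
      rintro f (⟨i, rfl⟩ | ⟨i, rfl⟩)
      · exact hα𝒯 i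
      · exact hβ𝒯 i
    -- the sum in the chart 𝔠₀ (second summand `0` in the auxiliary chart `𝔡`)
    have := hadd 𝔢 𝔡 𝔠₀ h𝔢𝔡.1 h𝔠𝔢.2 h𝔠𝔡.2
      (M × M) (fun z => ξ z + η z) (fun _ => 0) ε (fun _ _ => 0)
      (fun z i => T i (z.1 + z.2)) hε (fun _ => hzero 𝔡)
      (fun z => by
        have h := hT (z.1 + z.2)
        rw [map_add] at h
        simpa [hξd, hηd] using h) j
    have h3 := adjoin_union_zero_le' (A := A) {f : M × M → K | ∃ i, f = fun z => ε z i}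
      {f : M × M → K | ∃ i : Fin n, f = fun _ => (0 : K)} (by rintro f ⟨i, rfl⟩; rfl) this
    refine (Algebra.adjoin_le ?_ : Algebra.adjoin A _ ≤ tens 𝓗) h3
    rintro f ⟨i, rfl⟩
    exact hε𝒯 i

/-- **(heq)**: equivariance of the coordinate functions from the equivariance of `IsCo` on ONE
chart fixed by the group. -/
theorem coords_equivariant (hco : CoordSpecA A IsCo Ker)
    {M : Type u} {G : Type*} (ιM : M → P) (hKer : ∀ x, ιM x ∈ Ker)
    (act : G → M → M) (gK : G → K → K) (𝔠₀ : Ch) (T : Fin n → M → K)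
    (hT : ∀ x : M, IsCo 𝔠₀ (ιM x) (fun i => T i x))
    (hgal : ∀ (σ : G) (x : M) (τ : Fin n → K), IsCo 𝔠₀ (ιM x) τ →
      IsCo 𝔠₀ (ιM (act σ x)) (fun i => gK σ (τ i))) :
    ∀ i σ x, T i (act σ x) = gK σ (T i x) := by
  intro i σ x
  have h1 := hT (act σ x)
  have h2 := hgal σ x _ (hT x)
  exact congrFun ((hco 𝔠₀ _ (hKer _)).2.1 _ _ h1 h2) i

end Sys

/-! ### (NU) from a chart system over `ℚ̄` -/

section NU

variable {P : Type w} [AddCommGroup P] (A : ValuationSubring Qb) {n : ℕ}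
  {Ch : Type v} {IsCo : Ch → P → (Fin n → Qb) → Prop} {Disj : Ch → Ch → Prop} {Ker : AddSubgroup P}

/-- **[LOC²] + (NU) from a chart system**: a finite group `M` of classes in the kernel of reduction,
stable under the inertia group `I_A` (`A ∣ p`, `p` odd), with ONE `I_A`-fixed chart, has no
`I_A`-stable subquotient killed by `p` with trivial action. -/
theorem no_trivial_subquotient_of_charts {p : ℕ} (hp : p.Prime) (hA : (p : Qb) ∈ A.nonunits)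
    (hodd : Odd p)
    (hco : CoordSpecA A IsCo Ker) (hinj : CoordInjA IsCo)
    (hsup : ChartSupplyA Disj) (hadd : AddSpecA.{u} A IsCo Disj)
    (hzero : ∀ 𝔠, IsCo 𝔠 0 (fun _ => 0))
    {M : Type u} [AddCommGroup M] [Finite M] (ι : M →+ P) (hι : Function.Injective ι)
    (hKer : ∀ x, ι x ∈ Ker)
    (act : ↥(A.inertiaSubgroupIn ℚ) → M → M)
    (hactadd : ∀ σ x y, act σ (x + y) = act σ x + act σ y)
    (hsurj : ∀ σ, Function.Surjective (act σ))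
    (𝔠₀ : Ch)
    (hgal : ∀ (σ : ↥(A.inertiaSubgroupIn ℚ)) (x : M) (τ : Fin n → Qb), IsCo 𝔠₀ (ι x) τ →
      IsCo 𝔠₀ (ι (act σ x)) (fun i => σ • τ i)) :
    ¬ ∃ Y1 Y2 : AddSubgroup M, Y2 < Y1 ∧ (∀ σ, ∀ y ∈ Y1, act σ y ∈ Y1) ∧
      (∀ y ∈ Y1, p • y ∈ Y2) ∧ ∀ σ, ∀ y ∈ Y1, act σ y - y ∈ Y2 := by
  choose T hT using fun x : M => (hco 𝔠₀ (ι x) (hKer x)).1
  obtain ⟨hval, hsep, hΔ⟩ := coords_of_charts hco hinj hsup hadd hzero ι hι hKer 𝔠₀
    (fun i x => T x i) hT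
  have heq := coords_equivariant hco (fun x => ι x) hKer act (fun σ c => σ • c) 𝔠₀
    (fun i x => T x i) hT hgal
  exact no_trivial_subquotient_coords A hp hA act (fun i x => T x i) hodd hactadd hsurj hval heq
    hsep hΔ

end NU

end

end Fermat.Agent.GS.Loc2
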