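/-
GATE-S (S33) / node [LOC²] (helper71): **(NU) ⟹ `HasCE`** — the adapter from the output of
`GS/Loc2/Abs` / `GS/Loc2/Charts` (no inertia-trivial subquotient of the abstract finite `I_A`-module,
helper5's shape) to the (CE) field of helper79's `ConnPackage` / helper93's `HasCE`, for a subgroup
`W` killed by `p` of an ambient module with an action of `G_ℚ` (in the application `W = M⁰_1`
inside `J₀(N)[p]`, `hasCE_family` does the dévissage to `M⁰_k`).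

* `hasCE_of_noTriv`   : (NU) for `↥W` (with the restricted action of `I_A`) ⟹ `HasCE ↑I_A act W`.
* `hasCE_of_coords`   : coordinate functions on `↥W` (the four hypotheses of `GS/Loc2/Abs`) ⟹ `HasCE`.
* `hasCE_of_charts`   : a chart system (`GS/Loc2/Charts`) with one `I_A`-fixed chart ⟹ `HasCE`.
-/
import Mathlib
import Fermat.Agent.GS.Loc2.Charts
import Fermat.Agent.GS.Old.CeTransfer

set_option autoImplicit false
set_option linter.unusedSectionVars false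
set_option linter.style.haveILetI false

open Fermat.Agent.Common_helper32
open Fermat.Agent.GH Fermat.Agent.GS.Old

namespace Fermat.Agent.GS.Loc2

noncomputable section

universe u v w

variable (A : ValuationSubring Qb) {Mamb : Type u} [AddCommGroup Mamb]
  (act : GQ → Mamb → Mamb) (W : AddSubgroup Mamb)

/-- the action of the inertia group on an inertia-stable subgroup. -/
def actOn (hst : ∀ σ ∈ (↑(A.inertiaSubgroupIn ℚ) : Set GQ), ∀ x ∈ W, act σ x ∈ W)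
    (σ : ↥(A.inertiaSubgroupIn ℚ)) (x : ↥W) : ↥W :=
  ⟨act σ.1 x.1, hst σ.1 σ.2 x.1 x.2⟩

theorem actOn_coe (hst : ∀ σ ∈ (↑(A.inertiaSubgroupIn ℚ) : Set GQ), ∀ x ∈ W, act σ x ∈ W)
    (σ : ↥(A.inertiaSubgroupIn ℚ)) (x : ↥W) :
    ((actOn A act W hst σ x : ↥W) : Mamb) = act σ.1 x.1 := rfl

variable {act W}

/-- **(NU) ⟹ (CE)** for a subgroup killed by `p`. -/
theorem hasCE_of_noTriv {p : ℕ}
    (hadd : ∀ σ ∈ (↑(A.inertiaSubgroupIn ℚ) : Set GQ), ∀ x y, act σ (x + y) = act σ x + act σ y)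
    (hst : ∀ σ ∈ (↑(A.inertiaSubgroupIn ℚ) : Set GQ), ∀ x ∈ W, act σ x ∈ W)
    (hpW : ∀ w ∈ W, p • w = 0)
    (hNU : ¬ ∃ Y1 Y2 : AddSubgroup ↥W, Y2 < Y1 ∧
      (∀ σ, ∀ y ∈ Y1, actOn A act W hst σ y ∈ Y1) ∧
      (∀ y ∈ Y1, p • y ∈ Y2) ∧ ∀ σ, ∀ y ∈ Y1, actOn A act W hst σ y - y ∈ Y2) :
    HasCE (↑(A.inertiaSubgroupIn ℚ) : Set GQ) act W := by
  rw [hasCE_iff_noTrivSubquot hadd hst]
  intro Y₁ Y₂ h21 h1W hY₂ htriv
  by_contra hne
  refine hNU ⟨Y₁.comap W.subtype, Y₂.comap W.subtype, ?_, ?_, ?_, ?_⟩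
  · refine lt_of_le_of_ne (AddSubgroup.comap_mono h21) fun heq => hne fun y hy => ?_
    have hy' : (⟨y, h1W hy⟩ : ↥W) ∈ Y₁.comap W.subtype := hy
    rw [← heq] at hy'
    exact hy'
  · intro σ y hy
    have hy' : (y : Mamb) ∈ Y₁ := hy
    show act σ.1 y.1 ∈ Y₁
    have h1 := htriv σ.1 σ.2 _ hy'
    have h2 : act σ.1 y.1 = (act σ.1 y.1 - y.1) + y.1 := by abel
    rw [h2]
    exact Y₁.add_mem (h21 h1) hy'
  · intro y _
    have h0 : p • y = 0 := Subtype.ext (by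
      rw [AddSubgroup.coe_nsmul, ZeroMemClass.coe_zero]
      exact hpW y.1 y.2)
    rw [h0]
    exact (Y₂.comap W.subtype).zero_mem
  · intro σ y hy
    exact htriv σ.1 σ.2 _ hy

/-- **(CE) from coordinate functions** on a finite inertia-stable subgroup killed by `p`
(`GS/Loc2/Abs` through the adapter). -/
theorem hasCE_of_coords {p : ℕ} (hp : p.Prime) (hA : (p : Qb) ∈ A.nonunits) (hodd : Odd p)
    [Finite ↥W]
    (hadd : ∀ σ ∈ (↑(A.inertiaSubgroupIn ℚ) : Set GQ), ∀ x y, act σ (x + y) = act σ x + act σ y)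
    (hst : ∀ σ ∈ (↑(A.inertiaSubgroupIn ℚ) : Set GQ), ∀ x ∈ W, act σ x ∈ W)
    (hsurj : ∀ σ ∈ (↑(A.inertiaSubgroupIn ℚ) : Set GQ), ∀ x ∈ W, ∃ y ∈ W, act σ y = x)
    (hpW : ∀ w ∈ W, p • w = 0)
    {ι : Type v} [Finite ι] (T : ι → ↥W → Qb)
    (hval : ∀ i x, T i x ∈ A.nonunits)
    (heq : ∀ i (σ : ↥(A.inertiaSubgroupIn ℚ)) x, T i (actOn A act W hst σ x) = σ • T i x)
    (hsep : ∀ x y, x ≠ y → ∃ i, T i x ≠ T i y)
    (hΔ : ∀ j, (fun q : ↥W × ↥W => T j (q.1 + q.2)) ∈ tens (Algebra.adjoin (↥A) (Set.range T))) :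
    HasCE (↑(A.inertiaSubgroupIn ℚ) : Set GQ) act W := by
  refine hasCE_of_noTriv A hadd hst hpW ?_
  refine no_trivial_subquotient_coords A hp hA (actOn A act W hst) T hodd ?_ ?_ hval heq hsep hΔ
  · intro σ x y
    exact Subtype.ext (hadd σ.1 σ.2 x.1 y.1)
  · intro σ x
    obtain ⟨y, hy, hxy⟩ := hsurj σ.1 σ.2 x.1 x.2
    exact ⟨⟨y, hy⟩, Subtype.ext hxy⟩

/-- **(CE) from a chart system** with one inertia-fixed chart. -/
theorem hasCE_of_charts {P : Type w} [AddCommGroup P] {n : ℕ} {Ch : Type v}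
    {IsCo : Ch → P → (Fin n → Qb) → Prop} {Disj : Ch → Ch → Prop} {Ker : AddSubgroup P}
    {p : ℕ} (hp : p.Prime) (hA : (p : Qb) ∈ A.nonunits) (hodd : Odd p)
    (hco : CoordSpecA A IsCo Ker) (hinj : CoordInjA IsCo)
    (hsup : ChartSupplyA Disj) (hadd' : AddSpecA.{u} A IsCo Disj)
    (hzero : ∀ 𝔠, IsCo 𝔠 0 (fun _ => 0))
    [Finite ↥W]
    (hadd : ∀ σ ∈ (↑(A.inertiaSubgroupIn ℚ) : Set GQ), ∀ x y, act σ (x + y) = act σ x + act σ y)
    (hst : ∀ σ ∈ (↑(A.inertiaSubgroupIn ℚ) : Set GQ), ∀ x ∈ W, act σ x ∈ W)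
    (hsurj : ∀ σ ∈ (↑(A.inertiaSubgroupIn ℚ) : Set GQ), ∀ x ∈ W, ∃ y ∈ W, act σ y = x)
    (hpW : ∀ w ∈ W, p • w = 0)
    (ι : ↥W →+ P) (hι : Function.Injective ι) (hKer : ∀ x, ι x ∈ Ker) (𝔠₀ : Ch)
    (hgal : ∀ (σ : ↥(A.inertiaSubgroupIn ℚ)) (x : ↥W) (τ : Fin n → Qb), IsCo 𝔠₀ (ι x) τ →
      IsCo 𝔠₀ (ι (actOn A act W hst σ x)) (fun i => σ • τ i)) :
    HasCE (↑(A.inertiaSubgroupIn ℚ) : Set GQ) act W := by
  refine hasCE_of_noTriv A hadd hst hpW ?_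
  refine no_trivial_subquotient_of_charts A hp hA hodd hco hinj hsup hadd' hzero ι hι hKer
    (actOn A act W hst) ?_ ?_ 𝔠₀ hgal
  · intro σ x y
    exact Subtype.ext (hadd σ.1 σ.2 x.1 y.1)
  · intro σ x
    obtain ⟨y, hy, hxy⟩ := hsurj σ.1 σ.2 x.1 x.2
    exact ⟨⟨y, hy⟩, Subtype.ext hxy⟩

end

end Fermat.Agent.GS.Loc2
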