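/-
GATE-S (S33) / node [LOC²-INST], the PLUG over the abstract disc frame (helper32).

helper92's FRAME² contracts over `Φ : DiscData K F k Sp 𝒬` (`GS/Frame/Vocab.lean`:
`CoordUnique`, `CoordSmall`, `CoordInj`, `CoordExists Φ n 𝒦`, `ChartSupply`, `AddSpec`) are the four
abstract chart-system contracts of helper71's `GS/Loc2/Charts.lean` (`CoordSpecA`, `CoordInjA`,
`ChartSupplyA`, `AddSpecA`) with `Ch := Chart Φ n`, `IsCo := IsCoord`,
`Disj 𝔞 𝔟 := Disjoint 𝔞.supp 𝔟.supp`, `Ker := 𝒦`.  Hence, in ONE call,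

* `coords_disc`         : the coordinate functions of a finite group of classes of `𝒦` in one chart are
                          `𝔪_A`-valued, separating, `Δ`-stable over `A[T]` (`coords_of_charts`);
* `hasCE_of_discFrame`  : contracts + `ι : W →+ Pic⁰` injective into `𝒦` + ONE inertia-fixed chart with
                          equivariant coordinates (`hgal`, node [GAL-I]) ⟹ `HasCE ↑I_A act W`
                          (= the `ce` field of `ConnPackage`, the `h₁` input of `hasCE_family`).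

This is the analogue of `GS/Loc2/ChartsSmooth.lean` on the nodal frame; no `DiscFacts` is used here.
-/
import Mathlib
import Fermat.Agent.GS.Loc2.HasCE
import Fermat.Agent.GS.Frame.Vocab

set_option autoImplicit false
set_option linter.unusedSectionVars false
set_option linter.unusedVariables false

noncomputable section

open AlgebraicCurve

namespace Fermat.Agent.GS.Loc2.Disc

open Fermat.Agent.GS.Frame Fermat.Agent.GS.Loc2 Fermat.Agent.GH Fermat.Agent.RRh45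
open Fermat.Agent.Common_helper32

open scoped Classical

section Sys

variable {K F k Sp 𝒬 : Type} [Field K] [Field F] [Algebra K F] [Field k]
  [CommRing Sp] [Algebra k Sp]
variable (Φ : DiscData K F k Sp 𝒬) (n : ℕ)

/-- disjoint special supports. -/
def DisjD (𝔞 𝔟 : Frame.Chart Φ n) : Prop := Disjoint 𝔞.supp 𝔟.supp

variable {Φ n}

/-- the finite set of special points of a chart. -/
def suppF (𝔠 : Frame.Chart Φ n) : Finset 𝒬 := Finset.univ.image 𝔠.Q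

theorem disjoint_supp {𝔞 𝔢 : Frame.Chart Φ n} {S : Finset 𝒬} (hS : suppF 𝔞 ⊆ S)
    (h : ∀ i, 𝔢.Q i ∉ S) : Disjoint 𝔞.supp 𝔢.supp := by
  rw [Set.disjoint_left]
  rintro _ ⟨i, rfl⟩ ⟨j, hj⟩
  exact h j (hS (by rw [hj]; exact Finset.mem_image_of_mem _ (Finset.mem_univ i)))

theorem disjoint_supp' {𝔞 𝔢 : Frame.Chart Φ n} {S : Finset 𝒬} (hS : suppF 𝔞 ⊆ S)
    (h : ∀ i, 𝔢.Q i ∉ S) : Disjoint 𝔢.supp 𝔞.supp :=
  (disjoint_supp hS h).symm

/-- the zero class has coordinates `0` in every chart. -/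
theorem isCoord_zero (𝔠 : Frame.Chart Φ n) :
    Frame.IsCoord 𝔠 (0 : Pic0 K F) (fun _ => 0) := by
  refine ⟨fun i => (𝔠.pt i).P, fun i => (𝔠.pt i).hP, fun i => (𝔠.pt i).ht0, ?_⟩
  have h0 : (∑ i, Finsupp.single ((𝔠.pt i).P) (1 : ℤ)) - 𝔠.D0 = 0 := sub_self _
  refine ⟨?_, ?_⟩
  · rw [h0]; exact (Divisor.degZero (K := K) (F := F)).zero_mem
  · have : (⟨(∑ i, Finsupp.single ((𝔠.pt i).P) (1 : ℤ)) - 𝔠.D0, by
        rw [h0]; exact (Divisor.degZero (K := K) (F := F)).zero_mem⟩ :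
        Divisor.degZero (K := K) (F := F)) = 0 := Subtype.ext h0
    rw [this]
    rfl

theorem coordSpecA_of (hun : CoordUnique Φ n) (hsm : CoordSmall Φ n)
    {𝒦 : AddSubgroup (Pic0 K F)} (hex : CoordExists Φ n (𝒦 : Set (Pic0 K F))) :
    CoordSpecA Φ.A (fun (𝔠 : Frame.Chart Φ n) ξ τ => Frame.IsCoord 𝔠 ξ τ) 𝒦 :=
  fun 𝔠 ξ hξ => ⟨hex 𝔠 ξ hξ, fun τ τ' h h' => hun 𝔠 ξ τ τ' h h', fun τ h => hsm 𝔠 ξ τ h⟩

theorem coordInjA_of (hinj : CoordInj Φ n) :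
    CoordInjA (fun (𝔠 : Frame.Chart Φ n) ξ (τ : Fin n → K) => Frame.IsCoord 𝔠 ξ τ) :=
  fun 𝔠 ξ ξ' τ h h' => hinj 𝔠 ξ ξ' τ h h'

theorem chartSupplyA_of (hsup : ChartSupply Φ n) : ChartSupplyA (DisjD Φ n) := by
  intro S
  obtain ⟨𝔠, h𝔠⟩ := hsup (S.biUnion suppF)
  refine ⟨𝔠, fun 𝔞 h𝔞 => ?_⟩
  have hsub : suppF 𝔞 ⊆ S.biUnion suppF := Finset.subset_biUnion_of_mem suppF h𝔞
  exact ⟨disjoint_supp hsub h𝔠, disjoint_supp' hsub h𝔠⟩

theorem addSpecA_of (hadd : AddSpec Φ n) :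
    AddSpecA.{0} Φ.A (fun (𝔠 : Frame.Chart Φ n) ξ τ => Frame.IsCoord 𝔠 ξ τ) (DisjD Φ n) :=
  fun 𝔞 𝔟 𝔠 h1 h2 h3 Z _ ξ η τ σ μ hτ hσ hμ j => hadd 𝔞 𝔟 𝔠 h1 h2 h3 Z ξ η τ σ μ hτ hσ hμ j

/-- **the coordinate functions** of a finite group of classes of `𝒦` in ONE chart:
`𝔪_A`-valued, separating, `Δ`-stable with coefficients in `A[T]`. -/
theorem coords_disc (hun : CoordUnique Φ n) (hsm : CoordSmall Φ n) (hinj : CoordInj Φ n)
    {𝒦 : AddSubgroup (Pic0 K F)} (hex : CoordExists Φ n (𝒦 : Set (Pic0 K F)))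
    (hsup : ChartSupply Φ n) (hadd : AddSpec Φ n)
    {M : Type} [AddCommGroup M] [Finite M] (ι : M →+ Pic0 K F) (hι : Function.Injective ι)
    (hKer : ∀ x, ι x ∈ 𝒦) (𝔠₀ : Frame.Chart Φ n) (T : Fin n → M → K)
    (hT : ∀ x : M, Frame.IsCoord 𝔠₀ (ι x) (fun i => T i x)) :
    (∀ i x, T i x ∈ Φ.A.nonunits) ∧
    (∀ x y : M, x ≠ y → ∃ i, T i x ≠ T i y) ∧
    ∀ j, (fun q : M × M => T j (q.1 + q.2)) ∈ tens (Algebra.adjoin Φ.A (Set.range T)) :=
  coords_of_charts (coordSpecA_of hun hsm hex) (coordInjA_of hinj) (chartSupplyA_of hsup)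
    (addSpecA_of hadd) (fun 𝔠 => isCoord_zero 𝔠) ι hι hKer 𝔠₀ T hT

end Sys

section CE

local notation "Qb" => AlgebraicClosure ℚ
local notation "GQ" => (AlgebraicClosure ℚ ≃ₐ[ℚ] AlgebraicClosure ℚ)

variable {F k Sp 𝒬 : Type} [Field F] [Algebra Qb F] [Field k] [CommRing Sp] [Algebra k Sp]
variable (Φ : DiscData Qb F k Sp 𝒬) {n : ℕ}
variable {Mamb : Type} [AddCommGroup Mamb] {act : GQ → Mamb → Mamb} {W : AddSubgroup Mamb}

/-- **(CE) from the disc frame**: the FRAME² contracts, an injective additive map of `W` into the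
classes `𝒦` with coordinates, and ONE inertia-fixed chart with equivariant coordinates. -/
theorem hasCE_of_discFrame {p : ℕ} (hp : p.Prime) (hA : (p : Qb) ∈ Φ.A.nonunits) (hodd : Odd p)
    (hun : CoordUnique Φ n) (hsm : CoordSmall Φ n) (hinj : CoordInj Φ n)
    {𝒦 : AddSubgroup (Pic0 Qb F)} (hex : CoordExists Φ n (𝒦 : Set (Pic0 Qb F)))
    (hsup : ChartSupply Φ n) (hadd' : AddSpec Φ n)
    [Finite ↥W]
    (hadd : ∀ σ ∈ (↑(Φ.A.inertiaSubgroupIn ℚ) : Set GQ), ∀ x y,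
      act σ (x + y) = act σ x + act σ y)
    (hst : ∀ σ ∈ (↑(Φ.A.inertiaSubgroupIn ℚ) : Set GQ), ∀ x ∈ W, act σ x ∈ W)
    (hsurj : ∀ σ ∈ (↑(Φ.A.inertiaSubgroupIn ℚ) : Set GQ), ∀ x ∈ W, ∃ y ∈ W, act σ y = x)
    (hpW : ∀ w ∈ W, p • w = 0)
    (ι : ↥W →+ Pic0 Qb F) (hι : Function.Injective ι) (hKer : ∀ x, ι x ∈ 𝒦)
    (𝔠₀ : Frame.Chart Φ n)
    (hgal : ∀ (σ : ↥(Φ.A.inertiaSubgroupIn ℚ)) (x : ↥W) (τ : Fin n → Qb),
      Frame.IsCoord 𝔠₀ (ι x) τ →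
      Frame.IsCoord 𝔠₀ (ι (actOn Φ.A act W hst σ x)) (fun i => σ • τ i)) :
    Fermat.Agent.GS.Old.HasCE (↑(Φ.A.inertiaSubgroupIn ℚ) : Set GQ) act W :=
  hasCE_of_charts Φ.A hp hA hodd (coordSpecA_of hun hsm hex) (coordInjA_of hinj)
    (chartSupplyA_of hsup) (addSpecA_of hadd') (fun 𝔠 => isCoord_zero 𝔠) hadd hst hsurj hpW
    ι hι hKer 𝔠₀ hgal

end CE

end Fermat.Agent.GS.Loc2.Disc
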