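/-
GATE-S (S33) / node [LOC²] (helper71): PLUG-TEST of `GS/Loc2/Charts` against the SMOOTH frame of GATE-H
(`GH/Vocab`: `Chart H n`, `IsCoord`, `KerRed H`, contracts `CoordSpec`, `CoordInj`, `ChartSupply`, `AddSpec`).

The four GH contracts are the four abstract contracts of `GS/Loc2/Charts` VERBATIM (with
`Disj 𝔞 𝔟 := Disjoint 𝔞.supp 𝔟.supp`, `Ker := KerRed H` as an additive subgroup).  The nodal frame
(FRAME²) plugs in by the same 30 lines.
-/
import Mathlib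
import Fermat.Agent.GS.Loc2.Charts
import Fermat.Agent.GH.Ord.Main

set_option autoImplicit false
set_option linter.unusedSectionVars false

noncomputable section

open AlgebraicCurve

namespace Fermat.Agent.GS.Loc2.Smooth

open Fermat.Agent.GH Fermat.Agent.GS.Loc2
open Fermat.Agent.RRh45 Fermat.Agent.GJ.S37MinDiv Fermat.Agent.GJ.J1 Fermat.Agent.GJ.S37LSpace
  Fermat.Agent.GJ.S37ROfSurj

open scoped Classical

variable {K F k Ft : Type} [Field K] [Field F] [Algebra K F] [Field k] [Field Ft] [Algebra k Ft]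
variable {R : RedData K F k Ft} {g c : ℤ}
variable [FiniteResidues K F] [HasPrincipalDivisors K F] [Nonempty (Place K F)]
variable [FiniteResidues k Ft] [HasPrincipalDivisors k Ft] [Nonempty (Place k Ft)]
variable [Infinite k]

variable (H : LSpaceHyp R g c) (n : ℕ)

/-- the kernel of reduction as an additive subgroup. -/
def kerRedSubgroup : AddSubgroup (Pic0 K F) where
  carrier := KerRed H
  zero_mem' := zero_mem_KerRed H
  add_mem' := fun hx hy => add_mem_KerRed H hx hy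
  neg_mem' := fun hx => neg_mem_KerRed H hx

/-- disjoint special supports. -/
def DisjS (𝔞 𝔟 : Chart H n) : Prop := Disjoint 𝔞.supp 𝔟.supp

variable {H n}

theorem coordSpecA_of (hco : CoordSpec H n) :
    CoordSpecA R.A (fun (𝔠 : Chart H n) ξ τ => IsCoord 𝔠 ξ τ) (kerRedSubgroup H) :=
  fun 𝔠 ξ hξ => hco 𝔠 ξ hξ

theorem coordInjA_of (hinj : CoordInj H n) :
    CoordInjA (fun (𝔠 : Chart H n) ξ (τ : Fin n → K) => IsCoord 𝔠 ξ τ) :=
  fun 𝔠 ξ ξ' τ h h' => hinj 𝔠 ξ ξ' τ h h'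

theorem chartSupplyA_of (hsup : ChartSupply H n) : ChartSupplyA (DisjS H n) := by
  intro S
  obtain ⟨𝔠, h𝔠⟩ := hsup (S.biUnion Chart.suppF)
  refine ⟨𝔠, fun 𝔞 h𝔞 => ?_⟩
  have hsub : 𝔞.suppF ⊆ S.biUnion Chart.suppF := Finset.subset_biUnion_of_mem Chart.suppF h𝔞
  exact ⟨Chart.disjoint_supp hsub h𝔠, Chart.disjoint_supp' hsub h𝔠⟩

theorem addSpecA_of (hadd : AddSpec H n) :
    AddSpecA.{0} R.A (fun (𝔠 : Chart H n) ξ τ => IsCoord 𝔠 ξ τ) (DisjS H n) :=
  fun 𝔞 𝔟 𝔠 h1 h2 h3 Z _ ξ η τ σ μ hτ hσ hμ j => hadd 𝔞 𝔟 𝔠 h1 h2 h3 Z ξ η τ σ μ hτ hσ hμ j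

/-- the coordinate part of `GH.ord_main` with trivial cosets, through the abstract chart system. -/
theorem coords_smooth (hco : CoordSpec H n) (hinj : CoordInj H n) (hsup : ChartSupply H n)
    (hadd : AddSpec H n) (M : AddSubgroup (Pic0 K F)) [Finite M]
    (hM : ∀ x : M, (x : Pic0 K F) ∈ KerRed H)
    (𝔠₀ : Chart H n) (T : Fin n → M → K)
    (hT : ∀ x : M, IsCoord 𝔠₀ (x : Pic0 K F) (fun i => T i x)) :
    (∀ i x, T i x ∈ R.A.nonunits) ∧
    (∀ x y : M, x ≠ y → ∃ i, T i x ≠ T i y) ∧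
    ∀ j, (fun q : M × M => T j (q.1 + q.2)) ∈ tens (Algebra.adjoin R.A (Set.range T)) :=
  coords_of_charts (coordSpecA_of hco) (coordInjA_of hinj) (chartSupplyA_of hsup)
    (addSpecA_of hadd) (fun 𝔠 => isCoord_zero 𝔠) M.subtype M.subtype_injective
    (fun x => hM x) 𝔠₀ T hT

end Fermat.Agent.GS.Loc2.Smooth
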