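/-
GATE-S (S33) / node [LOC²-INST] (helper71): the PLUG of `GS/Loc2/{Charts,HasCE}` onto helper92's abstract
disc frame `GS/Frame/Vocab` (`DiscData`, `Chart Φ n`, `IsCoord`, contracts `CoordUnique`, `CoordSmall`,
`CoordInj`, `CoordExists Φ n 𝒦`, `ChartSupply`, `AddSpec`).

* `isCoord_zero` : the zero class has coordinates `0` in every chart of a disc frame.
* `coordSpecA_of / coordInjA_of / chartSupplyA_of / addSpecA_of` : the frame contracts are the abstract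
  contracts of `GS/Loc2/Charts` (with `Disj 𝔞 𝔟 := Disjoint 𝔞.supp 𝔟.supp`).
* `coords_of_frame` : (hval) (hsep) (hΔ) for a finite group of classes with coordinates.
* `hasCE_of_frame` : **`HasCE ↑I_A act W` from the six frame contracts + ONE `I_A`-fixed chart**
  (`Φ : DiscData ℚ̄ F k Sp 𝒬`, `A = Φ.A`) — the `ce` field of `ConnPackage` for `W = M⁰_1`.
-/
import Mathlib
import Fermat.Agent.GS.Loc2.HasCE
import Fermat.Agent.GS.Frame.Vocab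

set_option autoImplicit false
set_option linter.unusedSectionVars false

noncomputable section

open AlgebraicCurve

namespace Fermat.Agent.GS.Loc2.OnFrame

open Fermat.Agent.RRh45 Fermat.Agent.GH Fermat.Agent.GS.Frame Fermat.Agent.GS.Loc2
open Fermat.Agent.Common_helper32 Fermat.Agent.GS.Old

open scoped Classical

section Gen

variable {K F k Sp 𝒬 : Type} [Field K] [Field F] [Algebra K F] [Field k]
  [CommRing Sp] [Algebra k Sp]

variable (Φ : DiscData K F k Sp 𝒬) (n : ℕ)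

/-- disjoint supports. -/
def DisjS (𝔞 𝔟 : Frame.Chart Φ n) : Prop := Disjoint 𝔞.supp 𝔟.supp

variable {Φ n}

/-- the zero class has coordinates `0` in every chart. -/
theorem isCoord_zero (𝔠 : Frame.Chart Φ n) :
    Frame.IsCoord 𝔠 (0 : Pic0 K F) (fun _ => 0) := by
  refine ⟨fun i => (𝔠.pt i).P, fun i => (𝔠.pt i).hP, fun i => (𝔠.pt i).ht0, ?_⟩
  have h0 : (∑ i, Finsupp.single ((𝔠.pt i).P) (1 : ℤ)) - 𝔠.D0 = 0 := sub_self _
  refine ⟨?_, ?_⟩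
  · rw [h0]; exact (Divisor.degZero (K := K) (F := F)).zero_mem
  · have : (⟨(∑ i, Finsupp.single ((𝔠.pt i).P) (1 : ℤ)) - 𝔠.D0, by
        rw [h0]; exact (Divisor.degZero (K := K) (F := F)).zero_mem⟩ :
        Divisor.degZero (K := K) (F := F)) = 0 := Subtype.ext h0
    rw [this]
    rfl

theorem coordSpecA_of (hu : CoordUnique Φ n) (hs : CoordSmall Φ n) (Ker : AddSubgroup (Pic0 K F))
    (he : CoordExists Φ n (Ker : Set (Pic0 K F))) :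
    CoordSpecA Φ.A (fun (𝔠 : Frame.Chart Φ n) ξ τ => Frame.IsCoord 𝔠 ξ τ) Ker :=
  fun 𝔠 ξ hξ => ⟨he 𝔠 ξ hξ, fun τ τ' h h' => hu 𝔠 ξ τ τ' h h', fun τ h i => hs 𝔠 ξ τ h i⟩

theorem coordInjA_of (hinj : CoordInj Φ n) :
    CoordInjA (fun (𝔠 : Frame.Chart Φ n) ξ (τ : Fin n → K) => Frame.IsCoord 𝔠 ξ τ) :=
  fun 𝔠 ξ ξ' τ h h' => hinj 𝔠 ξ ξ' τ h h'

theorem chartSupplyA_of (hsup : ChartSupply Φ n) : ChartSupplyA (DisjS Φ n) := by
  intro S
  obtain ⟨𝔠, h𝔠⟩ := hsup (S.biUnion fun 𝔞 => Finset.univ.image 𝔞.Q)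
  refine ⟨𝔠, fun 𝔞 h𝔞 => ?_⟩
  have key : ∀ i j, 𝔞.Q i ≠ 𝔠.Q j := by
    intro i j hij
    refine h𝔠 j ?_
    rw [Finset.mem_biUnion]
    exact ⟨𝔞, h𝔞, by rw [← hij]; exact Finset.mem_image_of_mem _ (Finset.mem_univ i)⟩
  constructor
  · show Disjoint 𝔞.supp 𝔠.supp
    rw [Set.disjoint_left]
    rintro _ ⟨i, rfl⟩ ⟨j, hj⟩
    exact key i j hj.symm
  · show Disjoint 𝔠.supp 𝔞.supp
    rw [Set.disjoint_left]
    rintro _ ⟨j, rfl⟩ ⟨i, hi⟩
    exact key i j hi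

theorem addSpecA_of (hadd : AddSpec Φ n) :
    AddSpecA.{0} Φ.A (fun (𝔠 : Frame.Chart Φ n) ξ τ => Frame.IsCoord 𝔠 ξ τ) (DisjS Φ n) :=
  fun 𝔞 𝔟 𝔠 h1 h2 h3 Z _ ξ η τ σ μ hτ hσ hμ j => hadd 𝔞 𝔟 𝔠 h1 h2 h3 Z ξ η τ σ μ hτ hσ hμ j

/-- (hval) (hsep) (hΔ) for a finite group of classes with coordinates, on a disc frame. -/
theorem coords_of_frame (hu : CoordUnique Φ n) (hs : CoordSmall Φ n) (hinj : CoordInj Φ n)
    (Ker : AddSubgroup (Pic0 K F)) (he : CoordExists Φ n (Ker : Set (Pic0 K F)))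
    (hsup : ChartSupply Φ n) (hadd : AddSpec Φ n)
    {M : Type} [AddCommGroup M] [Finite M] (ι : M →+ Pic0 K F) (hι : Function.Injective ι)
    (hKer : ∀ x, ι x ∈ Ker) (𝔠₀ : Frame.Chart Φ n) (T : Fin n → M → K)
    (hT : ∀ x : M, Frame.IsCoord 𝔠₀ (ι x) (fun i => T i x)) :
    (∀ i x, T i x ∈ Φ.A.nonunits) ∧
    (∀ x y : M, x ≠ y → ∃ i, T i x ≠ T i y) ∧
    ∀ j, (fun q : M × M => T j (q.1 + q.2)) ∈ tens (Algebra.adjoin Φ.A (Set.range T)) :=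
  coords_of_charts (coordSpecA_of hu hs Ker he) (coordInjA_of hinj) (chartSupplyA_of hsup)
    (addSpecA_of hadd) (fun 𝔠 => isCoord_zero 𝔠) ι hι hKer 𝔠₀ T hT

end Gen

section Qbar

variable {F k Sp 𝒬 : Type} [Field F] [Algebra Qb F] [Field k] [CommRing Sp] [Algebra k Sp]
variable (Φ : DiscData Qb F k Sp 𝒬) {n : ℕ}
variable {Mamb : Type} [AddCommGroup Mamb] {act : GQ → Mamb → Mamb} {W : AddSubgroup Mamb}

/-- **`HasCE` on a disc frame over `ℚ̄`**: the six frame contracts (existence on `Ker ⊇ ι W`) and ONE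
chart on which the inertia group `I_{Φ.A}` acts equivariantly give (CE) for a finite `I`-stable
subgroup `W` killed by `p`. -/
theorem hasCE_of_frame {p : ℕ} (hp : p.Prime) (hA : (p : Qb) ∈ Φ.A.nonunits) (hodd : Odd p)
    (hu : CoordUnique Φ n) (hs : CoordSmall Φ n) (hinj : CoordInj Φ n)
    (Ker : AddSubgroup (Pic0 Qb F)) (he : CoordExists Φ n (Ker : Set (Pic0 Qb F)))
    (hsup : ChartSupply Φ n) (hadd' : AddSpec Φ n)
    [Finite ↥W]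
    (hadd : ∀ σ ∈ (↑(Φ.A.inertiaSubgroupIn ℚ) : Set GQ), ∀ x y,
      act σ (x + y) = act σ x + act σ y)
    (hst : ∀ σ ∈ (↑(Φ.A.inertiaSubgroupIn ℚ) : Set GQ), ∀ x ∈ W, act σ x ∈ W)
    (hsurj : ∀ σ ∈ (↑(Φ.A.inertiaSubgroupIn ℚ) : Set GQ), ∀ x ∈ W, ∃ y ∈ W, act σ y = x)
    (hpW : ∀ w ∈ W, p • w = 0)
    (ι : ↥W →+ Pic0 Qb F) (hι : Function.Injective ι) (hKer : ∀ x, ι x ∈ Ker)
    (𝔠₀ : Frame.Chart Φ n)
    (hgal : ∀ (σ : ↥(Φ.A.inertiaSubgroupIn ℚ)) (x : ↥W) (τ : Fin n → Qb),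
      Frame.IsCoord 𝔠₀ (ι x) τ →
        Frame.IsCoord 𝔠₀ (ι (actOn Φ.A act W hst σ x)) (fun i => σ • τ i)) :
    HasCE (↑(Φ.A.inertiaSubgroupIn ℚ) : Set GQ) act W :=
  hasCE_of_charts Φ.A hp hA hodd (coordSpecA_of hu hs Ker he) (coordInjA_of hinj)
    (chartSupplyA_of hsup) (addSpecA_of hadd') (fun 𝔠 => isCoord_zero 𝔠) hadd hst hsurj hpW
    ι hι hKer 𝔠₀ hgal

end Qbar

end Fermat.Agent.GS.Loc2.OnFrame
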